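import Mathlib.Data.Finsupp.Fin
import Mathlib.Algebra.Order.Antidiag.FinsuppEquiv
import Mathlib.Data.Nat.Factorial.Basic
import Mathlib.Data.Finsupp.Weight
import Mathlib.Data.Nat.Choose.Basic
import Mathlib.Data.Sym.Card

/-!
# Exponents of bounded degree and inequalities between their numbers
-/

set_option autoImplicit false

noncomputable section

namespace FermatAgent.AbVar

/-- The exponents of degree at most `m`. -/
def expUpTo (g m : ℕ) : Finset (Fin g →₀ ℕ) :=
  (Finset.finsuppAntidiag (Finset.univ : Finset (Fin (g + 1))) m).image Finsupp.tail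

theorem mem_expUpTo {g m : ℕ} {d : Fin g →₀ ℕ} : d ∈ expUpTo g m ↔ d.degree ≤ m := by
  simp only [expUpTo, Finset.mem_image, Finset.mem_finsuppAntidiag, Finset.subset_univ,
    and_true, Finsupp.degree_eq_sum, Fin.sum_univ_succ]
  constructor
  · rintro ⟨e, he, rfl⟩
    simp only [Finsupp.tail_apply]
    omega
  · intro hd
    refine ⟨Finsupp.cons (m - ∑ i, d i) d, ?_, Finsupp.tail_cons _ _⟩
    simp only [Finsupp.cons_zero, Finsupp.cons_succ]
    omega

theorem card_expUpTo (g m : ℕ) : (expUpTo g m).card = (m + g).choose g := by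
  rw [expUpTo, Finset.card_image_of_injOn, Finset.card_finsuppAntidiag_nat_eq_choose,
    Finset.card_univ, Fintype.card_fin, show g + 1 + m - 1 = g + m from by omega,
    ← Nat.choose_symm_add, add_comm]
  intro e he e' he' h
  simp only [Finset.mem_coe, Finset.mem_finsuppAntidiag, Finset.subset_univ,
    and_true, Fin.sum_univ_succ] at he he'
  rw [← Finsupp.cons_tail e, ← Finsupp.cons_tail e', h]
  congr 1
  have : ∀ i, e (Fin.succ i) = e' (Fin.succ i) := fun i => by
    simpa [Finsupp.tail_apply] using DFunLike.congr_fun h i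
  simp only [this] at he
  omega

/-- A comparison of binomials is one of powers. -/
theorem pow_le_of_choose_le {d g m M : ℕ} (h : d * (m + g).choose g ≤ (M + g).choose g) :
    d * (m + 1) ^ g ≤ (M + g) ^ g := by
  have h1 : ∀ a : ℕ, (a + g).choose g * g.factorial = (a + 1).ascFactorial g := fun a => by
    rw [Nat.ascFactorial_eq_factorial_mul_choose, mul_comm]
  have h2 : (m + 1) ^ g ≤ (m + g).choose g * g.factorial := by
    rw [h1]; exact Nat.pow_succ_le_ascFactorial (m + 1) g
  have h3 : (M + g).choose g * g.factorial ≤ (M + g) ^ g := by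
    rw [h1]; exact Nat.ascFactorial_le_pow_add M g
  calc d * (m + 1) ^ g ≤ d * ((m + g).choose g * g.factorial) := Nat.mul_le_mul_left _ h2
    _ = d * (m + g).choose g * g.factorial := by ring
    _ ≤ (M + g).choose g * g.factorial := Nat.mul_le_mul_right _ h
    _ ≤ (M + g) ^ g := h3

/-- A comparison of binomials the other way round is one of powers. -/
theorem pow_le_of_le_mul_choose {d g m M : ℕ} (h : (m + g).choose g ≤ d * (M + g).choose g) :
    (m + 1) ^ g ≤ d * (M + g) ^ g := by
  have h1 : ∀ a : ℕ, (a + g).choose g * g.factorial = (a + 1).ascFactorial g := fun a => by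
    rw [Nat.ascFactorial_eq_factorial_mul_choose, mul_comm]
  calc (m + 1) ^ g ≤ (m + g).choose g * g.factorial := by
        rw [h1]; exact Nat.pow_succ_le_ascFactorial (m + 1) g
    _ ≤ d * (M + g).choose g * g.factorial := Nat.mul_le_mul_right _ h
    _ ≤ d * (M + g) ^ g := by
        rw [mul_assoc, h1]
        exact Nat.mul_le_mul_left _ (Nat.ascFactorial_le_pow_add M g)

end FermatAgent.AbVar

end
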