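import Fermat.Agent.AbVar.Count.Sections
import Mathlib.RingTheory.MvPowerSeries.Substitution
import Mathlib.RingTheory.LaurentSeries
import Mathlib.RingTheory.PowerSeries.Inverse
import Mathlib.FieldTheory.IsAlgClosed.AlgebraicClosure
import Mathlib.Algebra.MvPolynomial.Funext

/-!
# A generic curve through the origin

The substitution `X_i ↦ u_i T` with independent `u_i` sends the function field to Laurent series
over `k = K(u)ᵃˡᵍ`; the field it generates with `T` is a curve through the origin on which a
function vanishing to order `m` at the origin has a zero of order at least `m`.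
-/

set_option autoImplicit false
set_option linter.style.haveILetI false

noncomputable section

universe u

open AlgebraicCurve FermatAgent.Curve IntermediateField

namespace FermatAgent.AbVar

attribute [-instance] HahnSeries.powerSeriesAlgebra

open AV

variable {K : Type u} [Field K]

variable (K) in
/-- The constants of the generic curve. -/
abbrev GenConst (g : ℕ) : Type u := AlgebraicClosure (FractionRing (MvPolynomial (Fin g) K))

variable {g : ℕ}

variable (K) in
/-- The direction of the generic line. -/
def genDir (i : Fin g) : GenConst K g :=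
  algebraMap (MvPolynomial (Fin g) K) (GenConst K g) (MvPolynomial.X i)

theorem aeval_genDir (p : MvPolynomial (Fin g) K) :
    MvPolynomial.aeval (genDir K (g := g)) p =
      algebraMap (MvPolynomial (Fin g) K) (GenConst K g) p := by
  have h : IsScalarTower.toAlgHom K (MvPolynomial (Fin g) K) (GenConst K g) =
      MvPolynomial.aeval (genDir K (g := g)) :=
    MvPolynomial.algHom_ext fun i => by simp [genDir]
  exact (DFunLike.congr_fun h p).symm

theorem algebraMap_genConst_injective :
    Function.Injective (algebraMap (MvPolynomial (Fin g) K) (GenConst K g)) := by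
  rw [IsScalarTower.algebraMap_eq (MvPolynomial (Fin g) K) (FractionRing (MvPolynomial (Fin g) K))
    (GenConst K g)]
  exact (RingHom.injective (algebraMap (FractionRing (MvPolynomial (Fin g) K)) (GenConst K g))).comp
    (IsFractionRing.injective (MvPolynomial (Fin g) K) (FractionRing (MvPolynomial (Fin g) K)))

theorem hasSubst_genLine :
    MvPowerSeries.HasSubst (fun i : Fin g =>
      (PowerSeries.C (genDir K i) * PowerSeries.X : PowerSeries (GenConst K g))) :=
  MvPowerSeries.hasSubst_of_constantCoeff_zero fun i => by
    show PowerSeries.constantCoeff _ = 0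
    simp

variable (K g) in
/-- Substitution of the generic line. -/
def lineSubst : MvPowerSeries (Fin g) K →ₐ[K] PowerSeries (GenConst K g) :=
  MvPowerSeries.substAlgHom (hasSubst_genLine (K := K))

theorem lineSubst_X (i : Fin g) :
    lineSubst K g (MvPowerSeries.X i) = PowerSeries.C (genDir K i) * PowerSeries.X :=
  MvPowerSeries.substAlgHom_X _ i

/-- The homogeneous part of degree `n`. -/
def homPart (f : MvPowerSeries (Fin g) K) (n : ℕ) : MvPolynomial (Fin g) K :=
  ∑ d ∈ Finset.finsuppAntidiag Finset.univ n,
    MvPolynomial.monomial d (MvPowerSeries.coeff d f)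

theorem mem_antidiag_univ {d : Fin g →₀ ℕ} {n : ℕ} :
    d ∈ Finset.finsuppAntidiag Finset.univ n ↔ d.degree = n := by
  simp [Finset.mem_finsuppAntidiag, Finsupp.degree_apply,
    Finset.sum_subset (Finset.subset_univ d.support) fun i _ hi => Finsupp.notMem_support_iff.mp hi]

theorem coeff_homPart (f : MvPowerSeries (Fin g) K) (d : Fin g →₀ ℕ) :
    (homPart f d.degree).coeff d = MvPowerSeries.coeff d f := by
  classical
  rw [homPart, MvPolynomial.coeff_sum, Finset.sum_eq_single d]
  · rw [MvPolynomial.coeff_monomial, if_pos rfl]
  · intro e _ he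
    rw [MvPolynomial.coeff_monomial, if_neg he]
  · intro h
    exact absurd (mem_antidiag_univ.mpr rfl) h

theorem coeff_lineSubst (f : MvPowerSeries (Fin g) K) (n : ℕ) :
    PowerSeries.coeff n (lineSubst K g f) =
      algebraMap (MvPolynomial (Fin g) K) (GenConst K g) (homPart f n) := by
  classical
  have key : ∀ d : Fin g →₀ ℕ,
      (d.prod fun s e => (PowerSeries.C (genDir K s) * PowerSeries.X) ^ e) =
        PowerSeries.C (d.prod fun s e => genDir K s ^ e) * PowerSeries.X ^ d.degree := fun d => by
    rw [Finsupp.prod, Finsupp.prod, Finsupp.degree_apply, map_prod, ← Finset.prod_pow_eq_pow_sum,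
      ← Finset.prod_mul_distrib]
    exact Finset.prod_congr rfl fun s _ => by rw [mul_pow, map_pow]
  rw [← aeval_genDir, homPart, map_sum, lineSubst, MvPowerSeries.coe_substAlgHom,
    PowerSeries.coeff_def (s := Finsupp.single () n) (Finsupp.single_eq_same),
    MvPowerSeries.coeff_subst (hasSubst_genLine (K := K))]
  have hterm : ∀ d : Fin g →₀ ℕ, MvPowerSeries.coeff d f •
      MvPowerSeries.coeff (Finsupp.single () n)
        (d.prod fun s e => (PowerSeries.C (genDir K s) * PowerSeries.X) ^ e) =
      if d.degree = n then MvPolynomial.aeval (genDir K (g := g))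
        (MvPolynomial.monomial d (MvPowerSeries.coeff d f)) else 0 := fun d => by
    rw [key, ← PowerSeries.coeff_def (s := Finsupp.single () n) (Finsupp.single_eq_same),
      PowerSeries.coeff_C_mul, PowerSeries.coeff_X_pow, MvPolynomial.aeval_monomial,
      ← Algebra.smul_def]
    by_cases h : n = d.degree
    · rw [if_pos h, if_pos h.symm, mul_one]
    · rw [if_neg h, if_neg fun e => h e.symm, mul_zero, smul_zero]
  rw [finsum_eq_sum_of_support_subset _ (s := Finset.finsuppAntidiag Finset.univ n) ?_]
  · refine Finset.sum_congr rfl fun d hd => ?_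
    rw [hterm, if_pos (mem_antidiag_univ.mp hd)]
  · intro d hd
    rw [Function.mem_support, hterm] at hd
    rw [Finset.mem_coe, mem_antidiag_univ]
    exact (ite_ne_right_iff.mp hd).1

theorem lineSubst_injective : Function.Injective (lineSubst K g) := by
  refine (injective_iff_map_eq_zero _).mpr fun f hf => ?_
  ext d
  have h := congrArg (PowerSeries.coeff d.degree) hf
  rw [coeff_lineSubst, map_zero,
    map_eq_zero_iff _ (algebraMap_genConst_injective (K := K))] at h
  rw [← coeff_homPart, h]
  simp

theorem coeff_lineSubst_eq_zero {f : MvPowerSeries (Fin g) K} {m : ℕ}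
    (h : ∀ e : Fin g →₀ ℕ, e.degree < m → MvPowerSeries.coeff e f = 0) {n : ℕ} (hn : n < m) :
    PowerSeries.coeff n (lineSubst K g f) = 0 := by
  rw [coeff_lineSubst, homPart, Finset.sum_eq_zero fun d hd => by
    rw [h d (by rw [mem_antidiag_univ.mp hd]; exact hn), map_zero], map_zero]

variable {G : AV K} {L : Type u} [Field L] [Algebra K L] {η : G.Pt L} (c : Chart η g)
  (halg : Algebra.IsAlgebraic
    (IntermediateField.adjoin K (Set.range fun i => (c.param i : L))) L)

/-- Laurent series over the constants of the generic curve. -/
abbrev GenSeries (K : Type u) [Field K] (g : ℕ) : Type u := LaurentSeries (GenConst K g)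

/-- The chart restricted to the generic line. -/
def Chart.lineHom : c.ring →ₐ[K] GenSeries K g where
  toRingHom := (HahnSeries.ofPowerSeries ℤ (GenConst K g)).comp
    ((lineSubst K g).comp c.psi).toRingHom
  commutes' r := by
    show HahnSeries.ofPowerSeries ℤ (GenConst K g)
      (((lineSubst K g).comp c.psi) (algebraMap K c.ring r)) = _
    rw [AlgHom.commutes, HahnSeries.algebraMap_apply, IsScalarTower.algebraMap_apply K (GenConst K g)
      (PowerSeries (GenConst K g)), PowerSeries.algebraMap_eq, HahnSeries.ofPowerSeries_C]

theorem Chart.lineHom_apply (a : c.ring) :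
    c.lineHom a = ((lineSubst K g (c.psi a) : PowerSeries (GenConst K g)) : GenSeries K g) := rfl

theorem Chart.lineHom_injective : Function.Injective c.lineHom :=
  HahnSeries.ofPowerSeries_injective.comp (lineSubst_injective.comp c.psi_injective)

include halg in
theorem Chart.isFractionRing : IsFractionRing c.ring L := by
  haveI : Algebra.IsAlgebraic (Algebra.adjoin K (Set.range fun i => (c.param i : L))) L :=
    IntermediateField.isAlgebraic_adjoin_iff_top.mp halg
  have hle : Algebra.adjoin K (Set.range fun i => (c.param i : L)) ≤ c.ring :=
    Algebra.adjoin_le (by rintro _ ⟨i, rfl⟩; exact (c.param i).2)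
  refine ⟨fun y => isUnit_iff_ne_zero.mpr fun h => nonZeroDivisors.coe_ne_zero y
      (Subtype.ext h), fun z => ?_, fun {x y} h => ⟨1, by rw [Subtype.ext h]⟩⟩
  have hz : IsAlgebraic c.ring z :=
    IsAlgebraic.ringHom_of_comp_eq (f := (Subalgebra.inclusion hle).toRingHom)
      (g := RingHom.id L) (Algebra.IsAlgebraic.isAlgebraic z)
      (Subalgebra.inclusion_injective hle) (RingHom.ext fun a => rfl)
  obtain ⟨y, hy, hint⟩ := hz.exists_integral_multiple
  exact ⟨⟨⟨_, c.closed _ hint⟩, ⟨y, mem_nonZeroDivisors_of_ne_zero hy⟩⟩, by
    show z * (y : L) = y • z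
    rw [Algebra.smul_def, mul_comm]; rfl⟩

/-- The function field in Laurent series. -/
def Chart.seriesHom : L →ₐ[K] GenSeries K g :=
  haveI := c.isFractionRing halg
  IsFractionRing.liftAlgHom (K := L) c.lineHom_injective

theorem Chart.seriesHom_coe (a : c.ring) : c.seriesHom halg (a : L) = c.lineHom a := by
  haveI := c.isFractionRing halg
  exact IsFractionRing.lift_algebraMap c.lineHom_injective a

variable [Algebra.EssFiniteType K L]

variable (K g) in
/-- The parameter of the generic curve. -/
def genParam : GenSeries K g := ((PowerSeries.X : PowerSeries (GenConst K g)) : GenSeries K g)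

/-- The function field of the generic curve. -/
def Chart.curveField : IntermediateField (GenConst K g) (GenSeries K g) :=
  IntermediateField.adjoin (GenConst K g)
    (insert (genParam K g) (c.seriesHom halg '' ↑(IntermediateField.fg_top K L).choose))

theorem Chart.seriesHom_mem (x : L) : c.seriesHom halg x ∈ c.curveField halg := by
  have h : (⊤ : IntermediateField K L).map (c.seriesHom halg) ≤
      (c.curveField halg).restrictScalars K := by
    rw [← (IntermediateField.fg_top K L).choose_spec, IntermediateField.adjoin_map,
      IntermediateField.adjoin_le_iff]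
    intro y hy
    refine (IntermediateField.mem_restrictScalars K).mpr ?_
    unfold Chart.curveField
    exact IntermediateField.subset_adjoin (GenConst K g) _ (Set.mem_insert_of_mem _ hy)
  exact h ⟨x, trivial, rfl⟩

/-- The function field as functions on the generic curve. -/
def Chart.curveHom : L →ₐ[K] c.curveField halg :=
  (c.seriesHom halg).codRestrict ((c.curveField halg).restrictScalars K).toSubalgebra
    (c.seriesHom_mem halg)

theorem Chart.coe_curveHom (x : L) :
    (c.curveHom halg x : GenSeries K g) = c.seriesHom halg x := rfl

theorem transcendental_genParam : Transcendental (GenConst K g) (genParam K g) := by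
  rw [transcendental_iff]
  intro p hp
  have h : Polynomial.aeval (genParam K g) p =
      ((p : PowerSeries (GenConst K g)) : GenSeries K g) := by
    clear hp
    induction p using Polynomial.induction_on' with
    | add q r hq hr => simp only [map_add, Polynomial.coe_add, hq, hr]
    | monomial n a =>
      simp [genParam, Polynomial.aeval_monomial, PowerSeries.monomial_eq_C_mul_X_pow,
        HahnSeries.algebraMap_apply, HahnSeries.ofPowerSeries_C]
  rw [h] at hp
  exact_mod_cast HahnSeries.ofPowerSeries_injective (hp.trans (map_zero _).symm)

theorem Chart.isFunctionField1_curveField :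
    IsFunctionField1 (GenConst K g) (c.curveField halg) := by
  refine IsFunctionField1.of_intermediateField_adjoin (transcendental_genParam (K := K))
    (c.seriesHom halg '' ↑(IntermediateField.fg_top K L).choose)
    ((Finset.finite_toSet _).image _) ?_ rfl
  rintro _ ⟨x, -, rfl⟩
  set E0 := IntermediateField.adjoin K (Set.range fun i => (c.param i : L))
  have hmem : ∀ e : E0, c.seriesHom halg e ∈ (GenConst K g)⟮genParam K g⟯ := by
    intro e
    have h : E0.map (c.seriesHom halg) ≤
        ((GenConst K g)⟮genParam K g⟯).restrictScalars K := by
      rw [IntermediateField.adjoin_map, IntermediateField.adjoin_le_iff]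
      rintro _ ⟨_, ⟨i, rfl⟩, rfl⟩
      show c.seriesHom halg (c.param i : L) ∈ (GenConst K g)⟮genParam K g⟯
      rw [c.seriesHom_coe, Chart.lineHom_apply, c.psi_param, lineSubst_X, map_mul]
      refine mul_mem ?_ (mem_adjoin_simple_self _ _)
      rw [HahnSeries.ofPowerSeries_C, HahnSeries.C_eq_algebraMap]
      exact IntermediateField.algebraMap_mem _ _
    exact h ⟨e, e.2, rfl⟩
  let f : E0 →+* (GenConst K g)⟮genParam K g⟯ :=
    ((c.seriesHom halg).toRingHom.comp (algebraMap E0 L)).codRestrict
      ((GenConst K g)⟮genParam K g⟯).toSubfield hmem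
  exact IsAlgebraic.ringHom_of_comp_eq (f := f) (g := (c.seriesHom halg).toRingHom)
    (halg.isAlgebraic x) f.injective (RingHom.ext fun a => rfl)

end FermatAgent.AbVar

end
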