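import Fermat.Agent.AbVar.Count.Curve

/-!
# The origin on the generic curve
-/

set_option autoImplicit false
set_option linter.style.haveILetI false

noncomputable section

universe u

open AlgebraicCurve FermatAgent.Curve IntermediateField

namespace FermatAgent.AbVar

attribute [-instance] HahnSeries.powerSeriesAlgebra

open AV

variable {K : Type u} [Field K] {G : AV K} {L : Type u} [Field L] [Algebra K L]
  {η : G.Pt L} {g : ℕ}

/-- A curve through the point of a chart on which orders of vanishing do not drop and to which
the generic point restricts. -/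
structure Probe (c : Chart η g) : Type (u + 1) where
  /-- The constants. -/
  k : Type u
  /-- The functions on the curve. -/
  F : Type u
  [instk : Field k]
  [instF : Field F]
  [instKk : Algebra K k]
  [instkF : Algebra k F]
  [instKF : Algebra K F]
  [instTower : IsScalarTower K k F]
  [instClosed : IsAlgClosed k]
  [instCurve : IsFunctionField1 k F]
  /-- Restriction of functions to the curve. -/
  j : L →ₐ[K] F
  /-- The point of the curve over the chart. -/
  v : Place k F
  specialises : SpecialisesTo (k := k) (AV.map j η) v (AV.map (Algebra.ofId K k) c.point)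
  mem : ∀ a : c.ring, j (a : L) ∈ v.toValuationSubring
  le_ord : ∀ (a : c.ring) (m : ℕ), a ≠ 0 →
    (∀ e : Fin g →₀ ℕ, e.degree < m → MvPowerSeries.coeff e (c.psi a) = 0) →
      (m : ℤ) ≤ v.ord (j (a : L))

attribute [instance] Probe.instk Probe.instF Probe.instKk Probe.instkF Probe.instKF
  Probe.instTower Probe.instClosed Probe.instCurve

variable (c : Chart η g)
  (halg : Algebra.IsAlgebraic
    (IntermediateField.adjoin K (Set.range fun i => (c.param i : L))) L)
  [Algebra.EssFiniteType K L]

/-- The series without principal part. -/
def Chart.originSubring : ValuationSubring (c.curveField halg) :=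
  ((Valued.v : Valuation (GenSeries K g) (WithZero (Multiplicative ℤ))).comap
    (c.curveField halg).val.toRingHom).valuationSubring

theorem Chart.mem_originSubring {x : c.curveField halg} :
    x ∈ c.originSubring halg ↔
      ∃ p : PowerSeries (GenConst K g), (p : GenSeries K g) = (x : GenSeries K g) :=
  LaurentSeries.val_le_one_iff_eq_coe (GenConst K g) (x : GenSeries K g)

/-- The parameter as a function on the curve. -/
def Chart.originParam : c.curveField halg :=
  ⟨genParam K g, IntermediateField.subset_adjoin _ _ (Set.mem_insert _ _)⟩

theorem Chart.algebraMap_mem_originSubring (a : GenConst K g) :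
    algebraMap (GenConst K g) (c.curveField halg) a ∈ c.originSubring halg := by
  refine (c.mem_originSubring halg).mpr ⟨PowerSeries.C a, ?_⟩
  rw [HahnSeries.ofPowerSeries_C, HahnSeries.C_eq_algebraMap]
  rfl

theorem Chart.originSubring_ne_top : c.originSubring halg ≠ ⊤ := by
  intro h
  obtain ⟨p, hp⟩ := (c.mem_originSubring halg).mp
    (h ▸ ValuationSubring.mem_top (c.originParam halg)⁻¹)
  have hne : genParam K g ≠ 0 := fun h0 =>
    PowerSeries.X_ne_zero (HahnSeries.ofPowerSeries_injective (h0.trans (map_zero _).symm))
  have h1 : ((p * PowerSeries.X : PowerSeries (GenConst K g)) : GenSeries K g) =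
      ((1 : PowerSeries (GenConst K g)) : GenSeries K g) := by
    rw [map_mul, hp, map_one]
    exact inv_mul_cancel₀ hne
  have := congrArg PowerSeries.constantCoeff (HahnSeries.ofPowerSeries_injective h1)
  simp at this

/-- The origin of the generic curve. -/
def Chart.originPlace :
    haveI := c.isFunctionField1_curveField halg
    Place (GenConst K g) (c.curveField halg) :=
  haveI := c.isFunctionField1_curveField halg
  placeOfValuationSubring (c.originSubring halg) (c.algebraMap_mem_originSubring halg)
    (c.originSubring_ne_top halg)

theorem Chart.curveHom_mem (a : c.ring) : c.curveHom halg (a : L) ∈ c.originSubring halg :=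
  (c.mem_originSubring halg).mpr ⟨lineSubst K g (c.psi a), by
    rw [c.coe_curveHom, c.seriesHom_coe, c.lineHom_apply]⟩

/-- The value at the origin. -/
def Chart.originValue :
    haveI := c.isFunctionField1_curveField halg
    placeAlg (K := K) (c.originPlace halg) →ₐ[K] GenConst K g :=
  haveI := c.isFunctionField1_curveField halg
  { toFun := fun x => ((x : c.curveField halg) : GenSeries K g).coeff 0
    map_one' := by simp
    map_zero' := by simp
    map_add' := fun x y => by simp
    map_mul' := fun x y => by
      obtain ⟨p, hp⟩ := (c.mem_originSubring halg).mp (mem_placeAlg.mp x.2)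
      obtain ⟨q, hq⟩ := (c.mem_originSubring halg).mp (mem_placeAlg.mp y.2)
      have h0 : ∀ r : PowerSeries (GenConst K g),
          ((r : PowerSeries (GenConst K g)) : GenSeries K g).coeff 0 =
            PowerSeries.constantCoeff r := fun r => by
        rw [← PowerSeries.coeff_zero_eq_constantCoeff]
        exact HahnSeries.ofPowerSeries_apply_coeff r 0
      show ((((x * y : placeAlg (K := K) (c.originPlace halg))) : c.curveField halg) :
        GenSeries K g).coeff 0 = _
      rw [Subalgebra.coe_mul, IntermediateField.coe_mul, ← hp, ← hq, ← map_mul, h0, h0, h0,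
        map_mul]
    commutes' := fun r => by
      show (((algebraMap K (c.curveField halg) r : c.curveField halg)) : GenSeries K g).coeff 0 = _
      rw [show (((algebraMap K (c.curveField halg) r : c.curveField halg)) : GenSeries K g) =
        algebraMap K (GenSeries K g) r from rfl, HahnSeries.algebraMap_apply]
      simp }

theorem Chart.isLocalHom_originValue :
    haveI := c.isFunctionField1_curveField halg
    IsLocalHom (c.originValue halg).toRingHom := by
  haveI := c.isFunctionField1_curveField halg
  refine ⟨fun x hx => ?_⟩
  obtain ⟨p, hp⟩ := (c.mem_originSubring halg).mp (mem_placeAlg.mp x.2)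
  have h0 : ((p : PowerSeries (GenConst K g)) : GenSeries K g).coeff 0 ≠ 0 := by
    rw [hp]
    exact hx.ne_zero
  have h1 : PowerSeries.constantCoeff p ≠ 0 := by
    rw [← PowerSeries.coeff_zero_eq_constantCoeff]
    exact fun h => h0 ((HahnSeries.ofPowerSeries_apply_coeff p 0).trans h)
  have hx0 : (x : c.curveField halg) ≠ 0 := by
    intro h
    rw [h] at hp
    exact h0 (by rw [hp]; simp)
  refine isUnit_iff_exists_inv.mpr ⟨⟨(x : c.curveField halg)⁻¹, mem_placeAlg.mpr
    ((c.mem_originSubring halg).mpr ⟨p⁻¹, ?_⟩)⟩, Subtype.ext (mul_inv_cancel₀ hx0)⟩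
  rw [IntermediateField.coe_inv, ← hp]
  refine eq_inv_of_mul_eq_one_left ?_
  rw [← map_mul, PowerSeries.inv_mul_cancel p h1, map_one]

theorem Chart.ord_originParam_pos :
    haveI := c.isFunctionField1_curveField halg
    0 < (c.originPlace halg).ord (c.originParam halg) := by
  haveI := c.isFunctionField1_curveField halg
  have hne : genParam K g ≠ 0 := fun h0 =>
    PowerSeries.X_ne_zero (HahnSeries.ofPowerSeries_injective (h0.trans (map_zero _).symm))
  have hmem : c.originParam halg ∈ (c.originPlace halg).toValuationSubring :=
    (c.mem_originSubring halg).mpr ⟨PowerSeries.X, rfl⟩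
  refine ((Curve.mem_nonunits_iff_ord_pos (c.originPlace halg)).mp ?_).resolve_left
    fun h => hne (congrArg Subtype.val h)
  rw [ValuationSubring.mem_nonunits_iff_exists_mem_maximalIdeal]
  refine ⟨hmem, fun hu => ?_⟩
  have h := (hu.map (c.originValue halg)).ne_zero
  refine h ?_
  show (genParam K g).coeff ((0 : ℕ) : ℤ) = 0
  rw [genParam, HahnSeries.ofPowerSeries_apply_coeff, PowerSeries.coeff_zero_eq_constantCoeff]
  simp

theorem Chart.le_ord_curveHom (a : c.ring) (m : ℕ) (ha : a ≠ 0)
    (h : ∀ e : Fin g →₀ ℕ, e.degree < m → MvPowerSeries.coeff e (c.psi a) = 0) :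
    haveI := c.isFunctionField1_curveField halg
    (m : ℤ) ≤ (c.originPlace halg).ord (c.curveHom halg (a : L)) := by
  haveI := c.isFunctionField1_curveField halg
  obtain ⟨q, hq⟩ := PowerSeries.X_pow_dvd_iff.mpr fun n hn => coeff_lineSubst_eq_zero h hn
  set T := c.originParam halg
  have hT := c.ord_originParam_pos halg
  have hT0 : T ≠ 0 := fun h0 => by
    rw [show c.originParam halg = T from rfl, h0, Place.ord_zero] at hT; omega
  have ha' : c.curveHom halg (a : L) ≠ 0 :=
    (map_ne_zero _).mpr fun h0 => ha (Subtype.ext h0)
  have hmem : c.curveHom halg (a : L) * (T ^ m)⁻¹ ∈ (c.originPlace halg).toValuationSubring := by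
    refine (c.mem_originSubring halg).mpr ⟨q, ?_⟩
    rw [IntermediateField.coe_mul, IntermediateField.coe_inv, IntermediateField.coe_pow,
      c.coe_curveHom, c.seriesHom_coe, c.lineHom_apply, hq, map_mul, map_pow]
    refine (mul_inv_eq_iff_eq_mul₀ ?_).mpr (mul_comm _ _) |>.symm
    exact pow_ne_zero _ fun h0 => hT0 (Subtype.ext h0)
  have h2 := Curve.ord_nonneg_of_mem' (c.originPlace halg) hmem
  rw [(c.originPlace halg).ord_mul ha' (inv_ne_zero (pow_ne_zero _ hT0)),
    (c.originPlace halg).ord_inv, Curve.ord_pow'] at h2
  nlinarith

/-- The generic point restricted to the generic curve specialises to the point of the chart at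
the origin. -/
theorem Chart.specialises_curveHom :
    haveI := c.isFunctionField1_curveField halg
    SpecialisesTo (k := GenConst K g) (AV.map (c.curveHom halg) η) (c.originPlace halg)
      (AV.map (Algebra.ofId K (GenConst K g)) c.point) := by
  haveI := c.isFunctionField1_curveField halg
  have hmem : ∀ a : c.ring, c.curveHom halg (a : L) ∈ placeAlg (K := K) (c.originPlace halg) :=
    fun a => mem_placeAlg.mpr (c.curveHom_mem halg a)
  refine ⟨c.originValue halg, c.isLocalHom_originValue halg, fun r _ => ?_, ?_⟩
  · show ((algebraMap (GenConst K g) (c.curveField halg) r : c.curveField halg) :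
      GenSeries K g).coeff 0 = r
    rw [show ((algebraMap (GenConst K g) (c.curveField halg) r : c.curveField halg) :
      GenSeries K g) = algebraMap (GenConst K g) (GenSeries K g) r from rfl,
      HahnSeries.algebraMap_apply]
    simp
  · have h := map_restrictHom (c.curveHom halg) c.ring (isVal_placeAlg (c.originPlace halg)) hmem
      c.pt
    simp only [c.map_pt] at h
    rw [h, AV.map_map, ← c.map_point (GenConst K g)]
    refine congrArg (fun φ : c.ring →ₐ[K] GenConst K g => AV.map φ c.pt) (AlgHom.ext fun a => ?_)
    show ((c.curveHom halg (a : L)) : GenSeries K g).coeff ((0 : ℕ) : ℤ) =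
      algebraMap K (GenConst K g) (c.ev a)
    rw [c.coe_curveHom, c.seriesHom_coe, c.lineHom_apply, HahnSeries.ofPowerSeries_apply_coeff,
      coeff_lineSubst, homPart, c.ev_apply, Finset.sum_eq_single 0]
    · rw [MvPolynomial.monomial_zero', ← MvPolynomial.algebraMap_eq,
        ← IsScalarTower.algebraMap_apply, MvPowerSeries.coeff_zero_eq_constantCoeff]
    · intro d hd hd0
      exact absurd ((Finsupp.degree_eq_zero_iff d).mp (mem_antidiag_univ.mp hd)) hd0
    · intro h
      exact absurd (mem_antidiag_univ.mpr (map_zero Finsupp.degree)) h

include halg in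
/-- The generic curve through the point of a chart. -/
theorem Chart.nonempty_probe : Nonempty (Probe c) := by
  haveI := c.isFunctionField1_curveField halg
  exact ⟨{
    k := GenConst K g
    F := c.curveField halg
    j := c.curveHom halg
    v := c.originPlace halg
    specialises := c.specialises_curveHom halg
    mem := c.curveHom_mem halg
    le_ord := c.le_ord_curveHom halg }⟩

end FermatAgent.AbVar

end
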