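import Fermat.Agent.AbVar.Count.Sections
import Fermat.Agent.Curve.Basics.Along

/-!
# Degrees along finite maps of curves

Pulling a point of a curve back along a finite map multiplies the degree of a line bundle along it
by the degree of the map.
-/

set_option autoImplicit false
set_option linter.unusedSectionVars false
set_option linter.style.haveILetI false

noncomputable section

universe u

open AlgebraicCurve FermatAgent.Curve

namespace FermatAgent.AbVar

open AV

variable {K : Type u} [Field K] {G : AV K} {k F F' : Type u} [Field k] [Field F] [Field F']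
  [Algebra K k] [Algebra k F] [Algebra K F] [IsScalarTower K k F] [Algebra k F'] [Algebra K F']
  [IsScalarTower K k F'] [IsAlgClosed k] [IsFunctionField1 k F] [IsFunctionField1 k F']
  (φ : F →ₐ[k] F')

theorem mem_restrictAlong_iff (w : Place k F') {f : F} :
    f ∈ (w.restrictAlong φ (isIntegralAlong φ)).toValuationSubring ↔
      φ f ∈ w.toValuationSubring := by
  letI := algebraAlong φ
  haveI := isScalarTower_along φ
  haveI := isIntegral_along φ (isIntegralAlong φ)
  exact w.mem_restrict_iff

theorem comap_placeAlg (w : Place k F') :
    (placeAlg (K := K) w).comap (φ.restrictScalars K) =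
      placeAlg (w.restrictAlong φ (isIntegralAlong φ)) :=
  SetLike.ext fun _ => (mem_restrictAlong_iff φ w).symm

theorem ordAt_map (B : G.LineBundle) (x : G.Pt F) (w : Place k F') :
    ordAt B (AV.map (φ.restrictScalars K) x) w =
      w.ramificationIndexAlong φ * ordAt B x (w.restrictAlong φ (isIntegralAlong φ)) := by
  have hval : ∀ (V V' : Subalgebra K F) (hV : IsVal V) (hV' : IsVal V'), V = V' →
      B.val hV x = B.val hV' x := by
    rintro V V' hV hV' rfl
    rfl
  unfold ordAt
  rw [val_map B _ (isVal_placeAlg w) x,
    hval _ _ _ (isVal_placeAlg (w.restrictAlong φ (isIntegralAlong φ))) (comap_placeAlg φ w)]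
  exact Place.ord_restrictAlong φ _ w _

/-- The degree along a point pulled back along a finite map of curves. -/
theorem degAlong_map (B : G.LineBundle) (x : G.Pt F) :
    degAlong k B (AV.map (φ.restrictScalars K) x) =
      (finrankAlong k φ : ℤ) * degAlong k B x := by
  set D : Divisor k F :=
    Finsupp.ofSupportFinite (fun v => ordAt B x v) (finite_support_ordAt B x)
  set D' : Divisor k F' := Finsupp.ofSupportFinite
    (fun w => ordAt B (AV.map (φ.restrictScalars K) x) w)
    (finite_support_ordAt B (AV.map (φ.restrictScalars K) x))
  have hsum : ∀ {E : Type u} [Field E] [Algebra k E] [IsFunctionField1 k E] (D : Divisor k E),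
      ∑ᶠ v, D v = Divisor.degree D := fun D => by
    rw [Curve.degree_eq_sum, Finsupp.sum, finsum_eq_sum_of_support_subset]
    rw [Finsupp.fun_support_eq]
  have hD' : D' = Divisor.pullbackAlong φ (isIntegralAlong φ) D := Finsupp.ext fun w => by
    rw [Divisor.pullbackAlong_apply]
    exact ordAt_map φ B x w
  calc degAlong k B (AV.map (φ.restrictScalars K) x) = ∑ᶠ w, D' w := rfl
    _ = Divisor.degree D' := hsum D'
    _ = (finrankAlong k φ : ℤ) * Divisor.degree D := by
        rw [hD', Divisor.degree_pullbackAlong φ _ (fundamentalIdentityAlong φ _)]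
    _ = (finrankAlong k φ : ℤ) * degAlong k B x := by rw [← hsum D]; rfl

end FermatAgent.AbVar

end
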