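import Fermat.Agent.AbVar.Count.Curve

/-!
# Independence over the image of multiplication by `n`, and multiples that are sections
-/

set_option autoImplicit false
set_option linter.style.haveILetI false

noncomputable section

universe u

namespace FermatAgent.AbVar

open AV

variable {K : Type u} [Field K] {G : AV K}

section Sections

variable {L : Type u} [Field L] [Algebra K L] {η : G.Pt L} {B : G.LineBundle}

theorem sect_le_of_le (h1 : (1 : L) ∈ sect η B 1) {a b : ℕ} (h : a ≤ b) :
    sect η B a ≤ sect η B b := fun f hf => by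
  have := mul_mem_sect B hf (pow_mem_sect B h1 (b - a))
  rwa [one_pow, mul_one, one_mul, Nat.add_sub_cancel' h] at this

/-- The functions that are sections of some power. -/
def sectAll (h1 : (1 : L) ∈ sect η B 1) : Subalgebra K L where
  carrier := {f | ∃ m, f ∈ sect η B m}
  mul_mem' := by
    rintro a b ⟨m, hm⟩ ⟨m', hm'⟩
    exact ⟨m + m', mul_mem_sect B hm hm'⟩
  add_mem' := by
    rintro a b ⟨m, hm⟩ ⟨m', hm'⟩
    exact ⟨max m m', Submodule.add_mem _ (sect_le_of_le h1 (le_max_left m m') hm)
      (sect_le_of_le h1 (le_max_right m m') hm')⟩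
  algebraMap_mem' r := ⟨0, by
    rw [Algebra.algebraMap_eq_smul_one]
    exact Submodule.smul_mem _ _ (one_mem_sect_zero B)⟩

/-- An element integral over an algebra of sections is a section. -/
theorem mem_sectAll_of_isIntegral (h1 : (1 : L) ∈ sect η B 1) {R : Subalgebra K L}
    (hR : R ≤ sectAll h1) {f : L} (hf : IsIntegral R f) : f ∈ sectAll h1 := by
  classical
  obtain ⟨p, hp, hpf⟩ := hf
  choose e he using fun i => hR (p.coeff i).2
  refine ⟨(Finset.range (p.natDegree + 1)).sup e, fun V hV => ?_⟩
  set M := (Finset.range (p.natDegree + 1)).sup e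
  set w : L := (B.val hV η : L) ^ M
  set W := hV.toValuationSubring
  let S : Subring L := W.toSubring
  have hcoef : ∀ i, (((p.map (algebraMap R L)).scaleRoots w).coeff i) ∈ S := by
    intro i
    rw [Polynomial.coeff_scaleRoots, Polynomial.coeff_map, hp.natDegree_map]
    rcases lt_trichotomy i p.natDegree with hi | hi | hi
    · have h : sect η B (e i) ≤ sect η B (M * (p.natDegree - i)) :=
        sect_le_of_le h1 ((Finset.le_sup (Finset.mem_range.mpr (by omega))).trans
          (Nat.le_mul_of_pos_right M (by omega)))
      rw [show w ^ (p.natDegree - i) = (B.val hV η : L) ^ (M * (p.natDegree - i)) from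
        (pow_mul _ _ _).symm]
      exact h (he i) V hV
    · subst hi
      rw [hp.coeff_natDegree, map_one, one_mul, Nat.sub_self, pow_zero]
      exact S.one_mem
    · rw [Polynomial.coeff_eq_zero_of_natDegree_lt hi, map_zero, zero_mul]
      exact S.zero_mem
  have hmonic : ((p.map (algebraMap R L)).scaleRoots w).Monic :=
    (Polynomial.monic_scaleRoots_iff w).mpr (hp.map _)
  have hroot : ((p.map (algebraMap R L)).scaleRoots w).eval (w * f) = 0 := by
    have := Polynomial.scaleRoots_eval₂_mul (R := L) (S := L) (RingHom.id L)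
      (p := p.map (algebraMap R L)) f w
    rw [Polynomial.eval₂_id, Polynomial.eval₂_id] at this
    rw [show RingHom.id L w = w from rfl] at this
    rw [this, Polynomial.eval_map, hpf, mul_zero]
  show f * w ∈ V
  refine FermatAgent.Curve.mem_valuationSubring_of_isIntegral W (R := S) (fun r => r.2) ?_
  have hsub : (↑((p.map (algebraMap R L)).scaleRoots w).coeffs : Set L) ⊆ (S : Set L) := by
    intro x hx
    obtain ⟨i, -, rfl⟩ := Polynomial.mem_coeffs_iff.mp hx
    exact hcoef i
  refine ⟨((p.map (algebraMap R L)).scaleRoots w).toSubring S hsub,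
    (Polynomial.monic_toSubring _ _ _).mpr hmonic, ?_⟩
  rw [show algebraMap S L = S.subtype from rfl, ← Polynomial.eval_map, Polynomial.map_toSubring,
    mul_comm, hroot]

end Sections

variable {S : CountSetting G} {n : ℕ} (I : CountInput S n)

/-- The sections algebraically generate: every element of a finite set has a common multiple
that is a section. -/
theorem CountSetting.exists_mul_mem_sect (S : CountSetting G) {ι : Type*} [Fintype ι]
    (e : ι → S.L) : ∃ (c : S.L) (b : ℕ), c ≠ 0 ∧ ∀ i, c * e i ∈ sect S.η S.B b := by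
  classical
  set R := Algebra.adjoin K (Set.range S.x)
  have hR : R ≤ sectAll S.one_mem :=
    Algebra.adjoin_le (by rintro _ ⟨i, rfl⟩; exact ⟨1, S.x_mem i⟩)
  haveI := S.algebraic
  have halg : Algebra.IsAlgebraic R S.L := by
    haveI : Algebra.IsAlgebraic
        (Algebra.adjoin K (Set.range fun i => (S.chart₀.param i : S.L))) S.L :=
      IntermediateField.isAlgebraic_adjoin_iff_top.mp S.algebraic
    have hle : Algebra.trdeg K S.L ≤ (G.dim : Cardinal) :=
      (Algebra.IsAlgebraic.trdeg_le_cardinalMk K
        (Set.range fun i => (S.chart₀.param i : S.L))).trans (by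
        have h := Cardinal.mk_range_le_lift (f := fun i => (S.chart₀.param i : S.L))
        simpa using h)
    refine (S.x_indep.isTranscendenceBasis_of_lift_trdeg_le_of_finite ?_).isAlgebraic
    simpa using hle
  choose c hc hint using fun i => (halg.isAlgebraic (e i)).exists_integral_multiple
  have hprod : ∀ i, ((∏ j, c j : R) : S.L) * e i ∈ sectAll S.one_mem := fun i => by
    rw [← Finset.prod_erase_mul _ _ (Finset.mem_univ i), Subalgebra.coe_mul, mul_assoc]
    refine (sectAll S.one_mem).mul_mem (hR (∏ j ∈ Finset.univ.erase i, c j).2)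
      (mem_sectAll_of_isIntegral S.one_mem hR ?_)
    exact hint i
  choose b hb using hprod
  exact ⟨((∏ j, c j : R) : S.L), Finset.univ.sup b,
    fun h => Finset.prod_ne_zero_iff.mpr (fun j _ => hc j) (Subtype.ext h),
    fun i => sect_le_of_le S.one_mem (Finset.le_sup (Finset.mem_univ i)) (hb i)⟩

/-- The separating functions are independent over the image of multiplication by `n`. -/
theorem CountInput.eq_zero_of_sum {e : {P : G.Pt K // n • P = 0} → S.L}
    (he : ∀ s t, ∃ h : e s ∈ (I.chart t).ring,
      (s = t → (I.chart t).ev ⟨e s, h⟩ = 1) ∧ (s ≠ t → (I.chart t).ev ⟨e s, h⟩ = 0))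
    [Fintype {P : G.Pt K // n • P = 0}] (a : {P : G.Pt K // n • P = 0} → S.L)
    (ha : ∑ s, I.mulMap (a s) * e s = 0) : a = 0 := by
  classical
  haveI := S.chart₀.isFractionRing S.algebraic
  obtain ⟨q, hq⟩ := IsLocalization.exist_integer_multiples_of_finite
    (nonZeroDivisors S.chart₀.ring) a
  choose r hr using hq
  have hr' : ∀ s, (r s : S.L) = ((q : S.chart₀.ring) : S.L) * a s := fun s =>
    (hr s).trans (Algebra.smul_def _ _)
  suffices hzero : ∀ s, S.chart₀.psi (r s) = 0 by
    funext s
    have h0 : ((q : S.chart₀.ring) : S.L) ≠ 0 := fun h =>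
      nonZeroDivisors.coe_ne_zero q (Subtype.ext h)
    have hr0 : r s = 0 := S.chart₀.psi_injective ((hzero s).trans (map_zero _).symm)
    exact (mul_eq_zero.mp ((hr' s).symm.trans (by rw [hr0]; rfl))).resolve_left h0
  suffices hcoef : ∀ (N : ℕ) s (d : Fin G.dim →₀ ℕ), d.degree = N →
      MvPowerSeries.coeff d (S.chart₀.psi (r s)) = 0 from
    fun s => MvPowerSeries.ext fun d => (hcoef _ s d rfl).trans (map_zero _).symm
  intro N
  induction N using Nat.strong_induction_on with
  | _ N ih =>
    intro t d hd
    choose h hone hoff using fun s => he s t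
    have hsum : ∑ s, (⟨I.mulMap (r s : S.L), I.mulMap_mem t (r s)⟩ : (I.chart t).ring) *
        ⟨e s, h s⟩ = 0 := by
      refine Subtype.ext ?_
      simp only [AddSubmonoidClass.coe_finsetSum, MulMemClass.coe_mul, hr', map_mul, mul_assoc,
        ← Finset.mul_sum, ha, mul_zero, ZeroMemClass.coe_zero]
    have h2 := congrArg (fun z => MvPowerSeries.coeff d ((I.chart t).psi z)) hsum
    simp only [map_sum, map_mul, map_zero, I.psi_mulMap] at h2
    rw [Finset.sum_eq_single t] at h2
    rotate_left
    · intro s _ hs
      rw [MvPowerSeries.coeff_mul]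
      refine Finset.sum_eq_zero fun p hp => ?_
      rw [Finset.HasAntidiagonal.mem_antidiagonal] at hp
      rcases eq_or_ne p.2 0 with h0 | h0
      · rw [h0, MvPowerSeries.coeff_zero_eq_constantCoeff, ← Chart.ev_apply, hoff s hs, mul_zero]
      · have hpos : p.2.degree ≠ 0 := fun h' => h0 ((Finsupp.degree_eq_zero_iff _).mp h')
        have hdeg : p.1.degree + p.2.degree = N := by rw [← map_add, hp, hd]
        rw [ih p.1.degree (by omega) s p.1 rfl, zero_mul]
    · intro hn; exact absurd (Finset.mem_univ t) hn
    rw [MvPowerSeries.coeff_mul, Finset.sum_eq_single (d, 0)] at h2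
    rotate_left
    · intro p hp hne
      rw [Finset.HasAntidiagonal.mem_antidiagonal] at hp
      have hpos : p.2.degree ≠ 0 := by
        intro h'
        have h0 := (Finsupp.degree_eq_zero_iff _).mp h'
        rw [h0, add_zero] at hp
        exact hne (Prod.ext hp h0)
      have hdeg : p.1.degree + p.2.degree = N := by rw [← map_add, hp, hd]
      rw [ih p.1.degree (by omega) t p.1 rfl, zero_mul]
    · intro hn; exact absurd (Finset.HasAntidiagonal.mem_antidiagonal.mpr (add_zero d)) hn
    rw [MvPowerSeries.coeff_zero_eq_constantCoeff, ← Chart.ev_apply, hone t rfl, mul_one] at h2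
    exact h2

end FermatAgent.AbVar

end
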