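import Fermat.Agent.AbVar.Interface
import Mathlib.RingTheory.MvPowerSeries.Basic

/-!
# What the torsion count needs from the scheme side

`Chart` is a local ring of the generic point at a rational point, seen in power series;
`CountInput` collects, for a fixed `n`, the charts at the `n`-torsion points, multiplication by `n`
on the function field and line bundles with enough sections.
-/

set_option autoImplicit false

noncomputable section

universe u

namespace FermatAgent.AbVar

open AV

variable {K : Type u} [Field K] {G : AV K} {L : Type u} [Field L] [Algebra K L]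

/-- The sections of the `m`-th power of a line bundle, as functions. -/
def sect (η : G.Pt L) (B : G.LineBundle) (m : ℕ) : Submodule K L where
  carrier := {f | ∀ (V : Subalgebra K L) (hV : IsVal V), f * (B.val hV η : L) ^ m ∈ V}
  add_mem' ha hb V hV := by rw [add_mul]; exact add_mem (ha V hV) (hb V hV)
  zero_mem' V hV := by rw [zero_mul]; exact zero_mem V
  smul_mem' c x hx V hV := by rw [smul_mul_assoc]; exact V.smul_mem (hx V hV) c

theorem mem_sect {η : G.Pt L} {B : G.LineBundle} {m : ℕ} {f : L} :
    f ∈ sect η B m ↔ ∀ (V : Subalgebra K L) (hV : IsVal V), f * (B.val hV η : L) ^ m ∈ V :=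
  Iff.rfl

/-- The local ring of the generic point at a rational point, embedded in power series. -/
structure Chart (η : G.Pt L) (g : ℕ) : Type u where
  /-- The local ring. -/
  ring : Subalgebra K L
  isLocal : IsLocalRing ring
  /-- The generic point over the local ring. -/
  pt : G.Pt ring
  map_pt : AV.map ring.val pt = η
  /-- The expansion. -/
  psi : ring →ₐ[K] MvPowerSeries (Fin g) K
  psi_injective : Function.Injective psi
  isUnit_of_ne : ∀ a : ring, MvPowerSeries.constantCoeff (psi a) ≠ 0 → IsUnit a
  /-- The parameters. -/
  param : Fin g → ring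
  psi_param : ∀ i, psi (param i) = MvPowerSeries.X i
  mem_pow : ∀ (a : ring) (k : ℕ), (∀ e : Fin g →₀ ℕ, e.degree < k →
    MvPowerSeries.coeff e (psi a) = 0) → a ∈ (Ideal.span (Set.range param)) ^ k
  closed : ∀ f : L, IsIntegral ring f → f ∈ ring

namespace Chart

variable {η : G.Pt L} {g : ℕ} (c : Chart η g)

instance : IsLocalRing c.ring := c.isLocal

/-- The value at the point of the chart. -/
def ev : c.ring →ₐ[K] K where
  toRingHom := (MvPowerSeries.constantCoeff (σ := Fin g) (R := K)).comp c.psi.toRingHom
  commutes' r := by
    show MvPowerSeries.constantCoeff (c.psi (algebraMap K c.ring r)) = r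
    rw [AlgHom.commutes, MvPowerSeries.algebraMap_apply, Algebra.algebraMap_self, RingHom.id_apply,
      MvPowerSeries.constantCoeff_C]

theorem ev_apply (a : c.ring) : c.ev a = MvPowerSeries.constantCoeff (c.psi a) := rfl

/-- The point of the chart. -/
def point : G.Pt K := AV.map c.ev c.pt

/-- The chart is the local ring at its point: points specialising to it factor through it. -/
def HasCentre : Prop :=
  ∀ {F k : Type u} [Field F] [Algebra K F] [Field k] [Algebra K k] (σ : L →ₐ[K] F)
    (V : Subalgebra K F) (hV : IsVal V) (ρ : V →ₐ[K] k), IsLocalHom ρ.toRingHom →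
    AV.map ρ (AV.lift hV (AV.map σ η)) = AV.map (Algebra.ofId K k) c.point →
    ∀ a : c.ring, ∃ h : σ (a : L) ∈ V, c.ev a = 0 → ρ ⟨σ (a : L), h⟩ = 0

/-- The trivialisation at the chart against the generic one. -/
def unit (B : G.LineBundle) : L := (B.t c.ring.val c.pt : Lˣ)

end Chart

/-- The data common to all `n`: the function field, a chart at zero and one line bundle with
enough sections. -/
structure CountSetting (G : AV K) : Type (u + 1) where
  /-- The function field. -/
  L : Type u
  [instField : Field L]
  [instAlgebra : Algebra K L]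
  [instFG : Algebra.EssFiniteType K L]
  /-- The generic point. -/
  η : G.Pt L
  /-- Inversion on functions. -/
  negMap : L →ₐ[K] L
  map_negMap : AV.map negMap η = -η
  /-- The chart at zero. -/
  chart₀ : Chart η G.dim
  point₀ : chart₀.point = 0
  algebraic : Algebra.IsAlgebraic
    (IntermediateField.adjoin K (Set.range fun i => (chart₀.param i : L))) L
  /-- The line bundle. -/
  B : G.LineBundle
  /-- Independent sections. -/
  x : Fin G.dim → L
  one_mem : (1 : L) ∈ sect η B 1
  x_mem : ∀ i, x i ∈ sect η B 1
  x_indep : AlgebraicIndependent K x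

attribute [instance] CountSetting.instField CountSetting.instAlgebra CountSetting.instFG

/-- The data for counting the `n`-torsion. -/
structure CountInput (S : CountSetting G) (n : ℕ) : Type u where
  /-- Multiplication by `n` on functions. -/
  mulMap : S.L →ₐ[K] S.L
  map_mulMap : AV.map mulMap S.η = n • S.η
  finite_torsion : Finite {P : G.Pt K // n • P = 0}
  /-- The charts at the torsion points. -/
  chart : {P : G.Pt K // n • P = 0} → Chart S.η G.dim
  point_chart : ∀ t, (chart t).point = t.1
  hasCentre_chart : ∀ t, (chart t).HasCentre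
  mulMap_mem : ∀ t (a : S.chart₀.ring), mulMap (a : S.L) ∈ (chart t).ring
  psi_mulMap : ∀ t (a : S.chart₀.ring),
    (chart t).psi ⟨mulMap (a : S.L), mulMap_mem t a⟩ = S.chart₀.psi a
  param_chart : ∀ t i, ((chart t).param i : S.L) = mulMap (S.chart₀.param i : S.L)
  torsion_descends : ∀ {k : Type u} [Field k] [Algebra K k] (P : G.Pt k), n • P = 0 →
    ∃ t : {P : G.Pt K // n • P = 0}, P = AV.map (Algebra.ofId K k) t.1
  separation : ∃ e : {P : G.Pt K // n • P = 0} → S.L, ∀ s t, ∃ h : e s ∈ (chart t).ring,
    (s = t → (chart t).ev ⟨e s, h⟩ = 1) ∧ (s ≠ t → (chart t).ev ⟨e s, h⟩ = 0)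

end FermatAgent.AbVar

end
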