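import Fermat.Agent.AbVar.Count.Sections

/-!
# Degrees of the multiples of a point
-/

set_option autoImplicit false

noncomputable section

universe u

open AlgebraicCurve FermatAgent.Curve

namespace FermatAgent.AbVar

open AV

variable {K : Type u} [Field K] {G : AV K} {k F : Type u} [Field k] [Field F] [Algebra K k]
  [Algebra k F] [Algebra K F] [IsScalarTower K k F]

/-- Lifting to the local ring of a place, as a homomorphism. -/
def liftHom (v : Place k F) : G.Pt F →+ G.Pt (placeAlg (K := K) v) :=
  AddMonoidHom.mk' (AV.lift (isVal_placeAlg v)) (AV.lift_add (isVal_placeAlg v))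

/-- Multiples of a point specialising to zero specialise to zero. -/
theorem SpecialisesTo.zsmul {P : G.Pt F} {v : Place k F} (h : SpecialisesTo P v 0) (a : ℤ) :
    SpecialisesTo (a • P) v 0 := by
  obtain ⟨ρ, hρ, hc, h0⟩ := h
  refine ⟨ρ, hρ, hc, ?_⟩
  show AV.map ρ (liftHom v (a • P)) = 0
  rw [map_zsmul, map_zsmul]
  show a • AV.map ρ (AV.lift (isVal_placeAlg v) P) = 0
  rw [h0, smul_zero]

variable [IsAlgClosed k] [IsFunctionField1 k F]

section Quadratic

variable (H : DegreeCube G) (B : G.LineBundle) {P : G.Pt F} {v : Place k F}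
  (hP : SpecialisesTo P v 0)

include H hP in
theorem degAlong_zero : degAlong k B (0 : G.Pt F) = 0 := by
  have h0 : SpecialisesTo (G := G) (k := k) (0 : G.Pt F) v 0 := by
    simpa using hP.zsmul 0
  have h := H B v 0 0 0 h0 h0 h0
  simp only [add_zero] at h
  omega

include H hP in
/-- The degree is quadratic along the multiples of a point. -/
theorem two_mul_degAlong_nsmul (n : ℕ) :
    2 * degAlong k B ((n : ℤ) • P) =
      degAlong k B P * (n * (n + 1)) + degAlong k B (-P) * (n * (n - 1)) := by
  have h0 := degAlong_zero H B hP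
  have step : ∀ a : ℤ, degAlong k B ((a + 1) • P) + degAlong k B ((a - 1) • P) =
      2 * degAlong k B (a • P) + degAlong k B P + degAlong k B (-P) := fun a => by
    have h := H B v (a • P) ((1 : ℤ) • P) ((-1 : ℤ) • P) (hP.zsmul a) (hP.zsmul 1) (hP.zsmul (-1))
    rw [one_smul, neg_one_smul] at h
    rw [add_smul, sub_smul, one_smul, sub_eq_add_neg]
    rw [show a • P + P + -P = a • P by abel, show P + -P = 0 by abel, h0] at h
    omega
  induction n using Nat.twoStepInduction with
  | zero => simp [h0]
  | one => simp; ring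
  | more n ih0 ih1 =>
    have h := step ((n : ℤ) + 1)
    rw [show ((n : ℤ) + 1 + 1) = ((n + 2 : ℕ) : ℤ) by push_cast; ring,
      show ((n : ℤ) + 1 - 1) = ((n : ℕ) : ℤ) by ring,
      show ((n : ℤ) + 1) = ((n + 1 : ℕ) : ℤ) by push_cast; ring] at h
    push_cast at ih0 ih1 h ⊢
    linear_combination 2 * h + 2 * ih1 - ih0

include H hP in
/-- The two degrees at `±n` times a point. -/
theorem degAlong_nsmul_add (n : ℕ) :
    degAlong k B (n • P) + degAlong k B (-(n • P)) =
      (n : ℤ) ^ 2 * (degAlong k B P + degAlong k B (-P)) := by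
  have hneg : SpecialisesTo (-P) v 0 := by simpa using hP.zsmul (-1)
  have h1 := two_mul_degAlong_nsmul H B hP n
  have h2 := two_mul_degAlong_nsmul H B hneg n
  rw [neg_neg, smul_neg] at h2
  rw [natCast_zsmul] at h1 h2
  have h3 : 2 * (degAlong k B (n • P) + degAlong k B (-(n • P))) =
      2 * ((n : ℤ) ^ 2 * (degAlong k B P + degAlong k B (-P))) := by
    linear_combination h1 + h2
  omega

include H hP in
/-- A bound for the degree at `n` times a point. -/
theorem degAlong_nsmul_le (hpos : 0 ≤ degAlong k B P) (hneg : 0 ≤ degAlong k B (-P)) (n : ℕ) :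
    degAlong k B (n • P) ≤ (n : ℤ) ^ 2 * (degAlong k B P + degAlong k B (-P)) := by
  have h1 := two_mul_degAlong_nsmul H B hP n
  rw [natCast_zsmul] at h1
  have hn : (0 : ℤ) ≤ n := n.cast_nonneg
  have hnn : (n : ℤ) ≤ (n : ℤ) ^ 2 := Int.le_self_sq _
  nlinarith [mul_le_mul_of_nonneg_left hnn hpos, mul_nonneg hneg hn,
    mul_nonneg hneg (sq_nonneg (n : ℤ))]

end Quadratic

end FermatAgent.AbVar

end
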