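import Fermat.Agent.AbVar.Count.Binom
import Fermat.Agent.AbVar.Count.Independence
import Fermat.Agent.AbVar.Count.CurvePlace
import Fermat.Agent.AbVar.Count.Quadratic
import Fermat.Agent.AbVar.Count.Extension

/-!
# The lower bound for the number of `n`-torsion points

The generic curve through the origin pulled back along multiplication by `n` meets every point
over the origin at a torsion point; a section whose jets vanish at all torsion points has too
many zeros there.
-/

set_option autoImplicit false
set_option linter.unusedSectionVars false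
set_option linter.style.haveILetI false

noncomputable section

universe u

open AlgebraicCurve FermatAgent.Curve

namespace FermatAgent.AbVar

attribute [-instance] HahnSeries.powerSeriesAlgebra

open AV

variable {K : Type u} [Field K] {G : AV K}

section Place

variable {k F : Type u} [Field k] [Field F] [Algebra K k] [Algebra k F] [Algebra K F]
  [IsScalarTower K k F] [IsAlgClosed k] [IsFunctionField1 k F]

/-- The value at a place, on its local ring. -/
def placeValue (v : Place k F) : placeAlg (K := K) v →ₐ[K] k where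
  toFun x := valueAt v (x : F)
  map_one' := by
    rw [OneMemClass.coe_one, ← map_one (algebraMap k F), valueAt_algebraMap]
  map_zero' := by
    rw [ZeroMemClass.coe_zero, ← map_zero (algebraMap k F), valueAt_algebraMap]
  map_add' x y := valueAt_add v (mem_placeAlg.mp x.2) (mem_placeAlg.mp y.2)
  map_mul' x y := valueAt_mul v (mem_placeAlg.mp x.2) (mem_placeAlg.mp y.2)
  commutes' r := by
    show valueAt v (algebraMap K F r) = algebraMap K k r
    rw [IsScalarTower.algebraMap_apply K k F, valueAt_algebraMap]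

theorem isLocalHom_placeValue (v : Place k F) :
    IsLocalHom (placeValue (K := K) v).toRingHom := by
  refine ⟨fun x hx => ?_⟩
  have hne : valueAt v (x : F) ≠ 0 := hx.ne_zero
  have hx0 : (x : F) ≠ 0 := fun h => hne (by rw [h, ← map_zero (algebraMap k F), valueAt_algebraMap])
  have h0 : v.ord (x : F) = 0 := le_antisymm
    (not_lt.mp fun h => hne ((valueAt_eq_zero_iff v (mem_placeAlg.mp x.2)).mpr (Or.inr h)))
    (Curve.ord_nonneg_of_mem' v (mem_placeAlg.mp x.2))
  refine isUnit_iff_exists_inv.mpr ⟨⟨(x : F)⁻¹, mem_placeAlg.mpr ?_⟩,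
    Subtype.ext (mul_inv_cancel₀ hx0)⟩
  rw [Curve.mem_iff_ord_nonneg', v.ord_inv]
  omega

/-- A specialisation is computed by the value at the place. -/
theorem SpecialisesTo.map_placeValue {P : G.Pt F} {v : Place k F} {Q : G.Pt k}
    (h : SpecialisesTo P v Q) :
    AV.map (placeValue v) (AV.lift (isVal_placeAlg v) P) = Q := by
  obtain ⟨ρ, hρ, hc, h⟩ := h
  rw [← h]
  refine congrArg (fun φ => AV.map φ _) (AlgHom.ext fun x => ?_)
  set a := valueAt v (x : F)
  have ha : algebraMap k F a ∈ placeAlg (K := K) v := v.algebraMap_mem' a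
  have hsub : ρ (x - ⟨_, ha⟩) = 0 := by
    by_contra hne
    have hu : IsUnit (x - ⟨_, ha⟩) := hρ.map_nonunit _ (isUnit_iff_ne_zero.mpr hne)
    obtain ⟨y, hy⟩ := isUnit_iff_exists_inv.mp hu
    have hy' : ((x : F) - algebraMap k F a) * (y : F) = 1 := congrArg Subtype.val hy
    rcases valueAt_spec v (mem_placeAlg.mp x.2) with h0 | h0
    · exact left_ne_zero_of_mul_eq_one hy' (sub_eq_zero.mpr h0)
    · have h2 := Curve.ord_nonneg_of_mem' v (mem_placeAlg.mp y.2)
      have h3 := congrArg v.ord hy'
      rw [v.ord_mul (left_ne_zero_of_mul_eq_one hy') (right_ne_zero_of_mul_eq_one hy'),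
        v.ord_one] at h3
      change 0 < v.ord ((x : F) - algebraMap k F a) at h0
      omega
  rw [map_sub, sub_eq_zero, hc] at hsub
  exact hsub.symm

end Place

section Ideal

variable {L F k : Type u} [Field L] [Algebra K L] [Field k] [Field F] [Algebra k F] [Algebra K F]

/-- The elements whose image vanishes to order at least `m` at a place. -/
def ordIdeal {R : Subalgebra K L} (σ : L →ₐ[K] F) (v : Place k F)
    (h : ∀ a : R, σ (a : L) ∈ v.toValuationSubring) (m : ℤ) : Ideal R where
  carrier := {a | σ (a : L) = 0 ∨ m ≤ v.ord (σ (a : L))}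
  zero_mem' := Or.inl (by simp)
  add_mem' := by
    intro a b ha hb
    show σ ((a : L) + (b : L)) = 0 ∨ m ≤ v.ord (σ ((a : L) + (b : L)))
    rw [map_add]
    rcases ha with ha | ha
    · rw [ha, zero_add]; exact hb
    rcases hb with hb | hb
    · rw [hb, add_zero]; exact Or.inr ha
    by_cases h0 : σ (a : L) + σ (b : L) = 0
    · exact Or.inl h0
    · refine Or.inr ?_
      exact (le_min ha hb).trans (Curve.min_le_ord_add v h0)
  smul_mem' := by
    intro c a ha
    rcases eq_or_ne (σ (c : L)) 0 with hc | hc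
    · exact Or.inl (by simp [hc])
    rcases eq_or_ne (σ (a : L)) 0 with ha0 | ha0
    · exact Or.inl (by simp [ha0])
    refine Or.inr ?_
    rw [smul_eq_mul, Subalgebra.coe_mul, map_mul, v.ord_mul hc ha0]
    have := Curve.ord_nonneg_of_mem' v (h c)
    have := ha.resolve_left ha0
    omega

theorem mem_ordIdeal {R : Subalgebra K L} {σ : L →ₐ[K] F} {v : Place k F}
    {h : ∀ a : R, σ (a : L) ∈ v.toValuationSubring} {m : ℤ} {a : R} :
    a ∈ ordIdeal σ v h m ↔ σ (a : L) = 0 ∨ m ≤ v.ord (σ (a : L)) := Iff.rfl

theorem span_pow_le_ordIdeal {R : Subalgebra K L} {σ : L →ₐ[K] F} {v : Place k F}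
    (h : ∀ a : R, σ (a : L) ∈ v.toValuationSubring) {s : Set R} {m : ℤ}
    (hs : ∀ a ∈ s, a ∈ ordIdeal σ v h m) : ∀ j : ℕ, Ideal.span s ^ j ≤ ordIdeal σ v h (j * m)
  | 0 => fun a _ => Or.inr (by
      simpa using Curve.ord_nonneg_of_mem' v (h a))
  | j + 1 => by
    rw [pow_succ, Ideal.mul_le]
    intro a ha b hb
    have ha' := span_pow_le_ordIdeal h hs j ha
    have hb' : b ∈ ordIdeal σ v h m := Ideal.span_le.mpr hs hb
    rw [mem_ordIdeal] at ha' hb' ⊢
    rw [Subalgebra.coe_mul, map_mul]
    rcases eq_or_ne (σ (a : L)) 0 with ha0 | ha0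
    · exact Or.inl (by rw [ha0, zero_mul])
    rcases eq_or_ne (σ (b : L)) 0 with hb0 | hb0
    · exact Or.inl (by rw [hb0, mul_zero])
    refine Or.inr ?_
    rw [v.ord_mul ha0 hb0]
    have := ha'.resolve_left ha0
    have := hb'.resolve_left hb0
    push_cast
    linarith

end Ideal

variable {S : CountSetting G} {n : ℕ}

theorem Chart.param_indep {L : Type u} [Field L] [Algebra K L] {η : G.Pt L} {g : ℕ}
    (c : Chart η g) : AlgebraicIndependent K fun i => (c.param i : L) := by
  refine algebraicIndependent_iff.mpr fun p hp => ?_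
  have h0 : MvPolynomial.aeval c.param p = 0 := Subtype.ext (by
    rw [ZeroMemClass.coe_zero, ← hp]
    exact DFunLike.congr_fun (MvPolynomial.comp_aeval c.param c.ring.val) p)
  have h := congrArg c.psi h0
  rw [map_zero, ← AlgHom.comp_apply, MvPolynomial.comp_aeval] at h
  have hX : (fun i => c.psi (c.param i)) = fun i => (MvPowerSeries.X i : MvPowerSeries (Fin g) K) :=
    funext c.psi_param
  rw [hX] at h
  have e : MvPolynomial.coeToMvPowerSeries.algHom (σ := Fin g) (R := K) K =
      MvPolynomial.aeval fun i : Fin g => (MvPowerSeries.X i : MvPowerSeries (Fin g) K) :=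
    MvPolynomial.algHom_ext fun i => by simp
  rw [← e, MvPolynomial.coeToMvPowerSeries.algHom_apply, Algebra.algebraMap_self,
    MvPowerSeries.map_id, RingHom.id_apply] at h
  exact MvPolynomial.coe_eq_zero_iff.mp h

/-- Every chart has parameters over which the function field is algebraic. -/
theorem CountSetting.algebraic_chart (S : CountSetting G) (c : Chart S.η G.dim) :
    Algebra.IsAlgebraic
      (IntermediateField.adjoin K (Set.range fun i => (c.param i : S.L))) S.L := by
  haveI : Algebra.IsAlgebraic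
      (Algebra.adjoin K (Set.range fun i => (S.chart₀.param i : S.L))) S.L :=
    IntermediateField.isAlgebraic_adjoin_iff_top.mp S.algebraic
  refine IntermediateField.isAlgebraic_adjoin_iff_top.mpr
    (c.param_indep.isTranscendenceBasis_of_lift_trdeg_le_of_finite ?_).isAlgebraic
  have hle : Algebra.trdeg K S.L ≤ (G.dim : Cardinal) :=
    (Algebra.IsAlgebraic.trdeg_le_cardinalMk K
      (Set.range fun i => (S.chart₀.param i : S.L))).trans (by
      have h := Cardinal.mk_range_le_lift (f := fun i => (S.chart₀.param i : S.L))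
      simpa using h)
  simpa using hle

theorem CountSetting.degAlong_neg_nonneg {k F : Type u} [Field k] [Field F] [Algebra K k]
    [Algebra k F] [Algebra K F] [IsScalarTower K k F] [IsAlgClosed k] [IsFunctionField1 k F]
    (S : CountSetting G) (σ : S.L →ₐ[K] F) : 0 ≤ degAlong k S.B (-(AV.map σ S.η)) := by
  rw [← _root_.map_neg (AV.map σ), ← S.map_negMap, AV.map_map]
  exact degAlong_nonneg S.B _ S.one_mem

section Curves

variable {k F F' : Type u} [Field k] [Field F] [Field F'] [Algebra K k] [Algebra k F] [Algebra K F]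
  [IsScalarTower K k F] [Algebra k F'] [Algebra K F'] [IsScalarTower K k F'] [IsAlgClosed k]
  [IsFunctionField1 k F] [IsFunctionField1 k F'] (I : CountInput S n)
  (j : S.L →ₐ[K] F) (j' : S.L →ₐ[K] F') (φ : F →ₐ[k] F')
  (hφ : (φ.restrictScalars K).comp j = j'.comp I.mulMap) (v : Place k F)

include hφ in
theorem map_nsmul_eq : n • AV.map j' S.η = AV.map (φ.restrictScalars K) (AV.map j S.η) := by
  rw [AV.map_map, hφ, ← AV.map_map, I.map_mulMap, map_nsmul]

include hφ in
/-- Over the origin the pulled back point reduces to a torsion point. -/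
theorem exists_centre (hx : SpecialisesTo (AV.map j S.η) v 0) (w : Place k F')
    (hw : w.restrictAlong φ (isIntegralAlong φ) = v) :
    ∃ t, ∀ a : (I.chart t).ring, ∃ h : j' (a : S.L) ∈ w.toValuationSubring,
      (I.chart t).ev a = 0 → placeValue (K := K) w ⟨_, mem_placeAlg.mpr h⟩ = 0 := by
  set y := AV.map j' S.η
  set Py := AV.map (placeValue w) (AV.lift (isVal_placeAlg w) y)
  have hv := hx.map_placeValue
  have hmem : ∀ a : placeAlg (K := K) v, (φ.restrictScalars K) a ∈ placeAlg (K := K) w := by
    rintro ⟨a, ha⟩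
    subst hw
    exact mem_placeAlg.mpr ((mem_restrictAlong_iff φ w).mp (mem_placeAlg.mp ha))
  have hn : n • Py = 0 := by
    show n • AV.map (placeValue w) (liftHom w y) = 0
    rw [← map_nsmul, ← map_nsmul, map_nsmul_eq I j j' φ hφ]
    show AV.map (placeValue w)
      (AV.lift (isVal_placeAlg w) (AV.map (φ.restrictScalars K) (AV.map j S.η))) = 0
    conv_lhs => rw [← AV.map_lift (isVal_placeAlg v) (AV.map j S.η)]
    rw [map_restrictHom (φ.restrictScalars K) _ (isVal_placeAlg w) hmem, AV.map_map]
    refine Eq.trans (congrArg (fun ψ => AV.map ψ _) (AlgHom.ext fun a => ?_)) hv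
    subst hw
    exact (valueAt_restrictAlong φ _ w (a : F)).symm
  obtain ⟨t, ht⟩ := I.torsion_descends Py hn
  refine ⟨t, fun a => ?_⟩
  obtain ⟨h, h0⟩ := I.hasCentre_chart t j' (placeAlg w) (isVal_placeAlg w) (placeValue w)
    (isLocalHom_placeValue w) (by rw [I.point_chart t, ← ht]) a
  exact ⟨mem_placeAlg.mp h, h0⟩

include hφ in
/-- The bound coming from `M`. -/
theorem choose_le_lower (H : DegreeCube G) (hn : 0 < n)
    (hx : SpecialisesTo (AV.map j S.η) v 0)
    (hparam : ∀ i, 0 < v.ord (j (S.chart₀.param i : S.L))) (v' : Place k F')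
    (hy : SpecialisesTo (AV.map j' S.η) v' 0) (M : ℕ) :
    (n ^ 2 * M + G.dim).choose G.dim ≤ Nat.card {Q : G.Pt K // n • Q = 0} *
      (M * (degAlong k S.B (AV.map j S.η) + degAlong k S.B (-(AV.map j S.η))).toNat +
        G.dim).choose G.dim := by
  classical
  haveI := I.finite_torsion
  letI := Fintype.ofFinite {Q : G.Pt K // n • Q = 0}
  set g := G.dim
  set δ := degAlong k S.B (AV.map j S.η) + degAlong k S.B (-(AV.map j S.η))
  have hδ : 0 ≤ δ := add_nonneg (degAlong_nonneg S.B j S.one_mem) (S.degAlong_neg_nonneg j)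
  set N := n ^ 2 * M
  set Jd := M * δ.toNat
  set y := AV.map j' S.η
  set E := finrankAlong k φ
  have hE : 0 < E := finrankAlong_pos φ
  have hdeg : (n : ℤ) ^ 2 * (degAlong k S.B y + degAlong k S.B (-y)) = E * δ := by
    rw [← degAlong_nsmul_add H S.B hy n, map_nsmul_eq I j j' φ hφ, ← _root_.map_neg,
      degAlong_map, degAlong_map, mul_add]
  let mon : expUpTo g N → S.L := fun α =>
    MvPolynomial.aeval S.x (MvPolynomial.monomial α.1 (1 : K))
  have hmon : ∀ α, mon α ∈ sect S.η S.B N := fun α =>
    aeval_mem_sect S.B S.x S.one_mem S.x_mem fun d hd => by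
      rw [Finset.mem_singleton.mp (MvPolynomial.support_monomial_subset hd)]
      exact mem_expUpTo.mp α.2
  have hreg : ∀ (t : {Q : G.Pt K // n • Q = 0}) α,
      mon α * (I.chart t).unit S.B ^ N ∈ (I.chart t).ring :=
    fun t α => (I.chart t).mul_pow_mem S.B (hmon α)
  let jets : (expUpTo g N → K) →ₗ[K] ({Q : G.Pt K // n • Q = 0} × expUpTo g Jd → K) :=
    LinearMap.pi fun td => ∑ α,
      (MvPowerSeries.coeff td.2.1 ((I.chart td.1).psi ⟨_, hreg td.1 α⟩)) • LinearMap.proj α
  have hinj : Function.Injective jets := by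
    refine (injective_iff_map_eq_zero jets).mpr fun l hl => ?_
    set p : MvPolynomial (Fin g) K := ∑ α, l α • MvPolynomial.monomial α.1 (1 : K)
    set f : S.L := MvPolynomial.aeval S.x p with hfdef
    suffices hf : f = 0 by
      have hp : p = 0 := S.x_indep.eq_zero_of_aeval_eq_zero p hf
      funext α
      have h := congrArg (MvPolynomial.coeff α.1) hp
      rw [MvPolynomial.coeff_sum, Finset.sum_eq_single α] at h
      · simpa [MvPolynomial.coeff_monomial] using h
      · intro β _ hβ
        rw [MvPolynomial.coeff_smul, MvPolynomial.coeff_monomial,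
          if_neg fun e' => hβ (Subtype.ext e'), smul_zero]
      · intro hn'; exact absurd (Finset.mem_univ α) hn'
    by_contra hf0
    have hfsum : f = ∑ α, l α • mon α := by simp only [hfdef, p, map_sum, map_smul, mon]
    have hfsect : f ∈ sect S.η S.B N :=
      hfsum ▸ Submodule.sum_mem _ fun α _ => Submodule.smul_mem _ _ (hmon α)
    have hloc : ∀ w ∈ Place.fiberAlong φ (isIntegralAlong φ) v,
        (((Jd : ℤ) + 1) * (w.ramificationIndexAlong φ : ℕ)) ≤
          w.ord (j' f) + N * ordAt S.B y w := by
      intro w hw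
      rw [Place.mem_fiberAlong] at hw
      obtain ⟨t, ht⟩ := exists_centre I j j' φ hφ v hx w hw
      choose hmem hval using ht
      set c := I.chart t
      set e : ℤ := ((w.ramificationIndexAlong φ : ℕ) : ℤ) with he
      have hlocal : IsLocalHom (restrictHom j' c.ring (placeAlg (K := K) w)
          fun a => mem_placeAlg.mpr (hmem a)).toRingHom := by
        refine ⟨fun a ha => c.isUnit_of_ne a fun h0 => ?_⟩
        exact (ha.map (placeValue (K := K) w)).ne_zero (hval a h0)
      have hord : ordAt S.B y w = w.ord (j' (c.unit S.B)) := by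
        unfold ordAt
        congr 1
        conv_lhs => rw [show y = AV.map j' (AV.map c.ring.val c.pt) by rw [c.map_pt]]
        exact t_val_map S.B j' (isVal_placeAlg w) c.ring (fun a => mem_placeAlg.mpr (hmem a))
          hlocal c.pt
      have hpar : ∀ a ∈ Set.range c.param, a ∈ ordIdeal j' w hmem e := by
        rintro _ ⟨i, rfl⟩
        refine Or.inr ?_
        rw [I.param_chart t i, ← AlgHom.comp_apply, ← hφ, AlgHom.comp_apply,
          AlgHom.restrictScalars_apply, Place.ord_restrictAlong φ (isIntegralAlong φ) w, hw]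
        exact le_mul_of_one_le_right (Int.natCast_nonneg _) (hparam i)
      set a : c.ring := ∑ α, l α • (⟨_, hreg t α⟩ : c.ring)
      have hfa : f * c.unit S.B ^ N = (a : S.L) := by
        simp only [hfsum, a, Finset.sum_mul, smul_mul_assoc, AddSubmonoidClass.coe_finsetSum,
          Subalgebra.coe_smul, c]
      have ha : a ∈ Ideal.span (Set.range c.param) ^ (Jd + 1) := by
        refine c.mem_pow a (Jd + 1) fun d hd => ?_
        have h := congrFun hl (t, ⟨d, mem_expUpTo.mpr (Nat.lt_succ_iff.mp hd)⟩)
        simp only [jets, LinearMap.pi_apply, Finset.sum_apply, LinearMap.smul_apply,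
          LinearMap.coe_sum, LinearMap.proj_apply, smul_eq_mul, Pi.zero_apply] at h
        simp only [a, map_sum, map_smul, smul_eq_mul]
        exact (Finset.sum_congr rfl fun α _ => mul_comm _ _).trans h
      have h := span_pow_le_ordIdeal hmem hpar (Jd + 1) ha
      rw [mem_ordIdeal, ← hfa, map_mul, map_pow] at h
      have hu0 : j' (c.unit S.B) ≠ 0 := (map_ne_zero _).mpr (Units.ne_zero _)
      have hf0' : j' f ≠ 0 := (map_ne_zero _).mpr hf0
      have h' := h.resolve_left (mul_ne_zero hf0' (pow_ne_zero _ hu0))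
      rw [w.ord_mul hf0' (pow_ne_zero _ hu0), Curve.ord_pow', ← hord] at h'
      push_cast at h'
      exact h'
    have hpole : ∀ w : Place k F', 0 ≤ w.ord (j' f) + N * ordAt S.B y w :=
      fun w => ord_map_sect S.B j' hfsect hf0 w
    have hfin : (Function.support fun w : Place k F' => (N : ℤ) * ordAt S.B y w).Finite :=
      (finite_support_ordAt S.B y).subset fun w hw h => hw (by simp [h])
    have htot := sum_ord_add_le_finsum hfin hpole (Place.fiberAlong φ (isIntegralAlong φ) v)
    have hsum : (((Jd : ℤ) + 1) * E) ≤ N * degAlong k S.B y := by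
      calc (((Jd : ℤ) + 1) * E)
          = ∑ w ∈ Place.fiberAlong φ (isIntegralAlong φ) v,
              ((Jd : ℤ) + 1) * (w.ramificationIndexAlong φ : ℕ) := by
            rw [← Finset.mul_sum, ← Nat.cast_sum, sum_ramificationIndexAlong φ]
        _ ≤ _ := Finset.sum_le_sum hloc
        _ ≤ ∑ᶠ w, (N : ℤ) * ordAt S.B y w := htot
        _ = N * degAlong k S.B y := (mul_finsum _ _).symm
    have hneg : 0 ≤ degAlong k S.B (-y) := S.degAlong_neg_nonneg j'
    have hJd : (Jd : ℤ) = M * δ := by
      simp only [Jd]; push_cast; rw [Int.toNat_of_nonneg hδ]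
    have hN : (N : ℤ) = (n : ℤ) ^ 2 * M := by simp only [N]; push_cast; ring
    have hM : (0 : ℤ) ≤ M := M.cast_nonneg
    have hn2 : (0 : ℤ) < (n : ℤ) ^ 2 := by positivity
    have hE' : (0 : ℤ) < (E : ℤ) := by exact_mod_cast hE
    have h1 : ((M : ℤ) * δ + 1) * E ≤ (M : ℤ) * ((n : ℤ) ^ 2 * degAlong k S.B y) := by
      rw [hJd, hN] at hsum; linarith
    have h2 : (M : ℤ) * ((n : ℤ) ^ 2 * degAlong k S.B y) ≤ (M : ℤ) * (E * δ) := by
      rw [← hdeg]
      exact mul_le_mul_of_nonneg_left
        (mul_le_mul_of_nonneg_left (le_add_of_nonneg_right hneg) hn2.le) hM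
    linarith
  have h := LinearMap.finrank_le_finrank_of_injective hinj
  rwa [Module.finrank_fintype_fun_eq_card, Module.finrank_fintype_fun_eq_card, Fintype.card_prod,
    Fintype.card_coe, Fintype.card_coe, card_expUpTo, card_expUpTo, ← Nat.card_eq_fintype_card] at h

end Curves

/-- The number of torsion points is positive. -/
theorem CountInput.card_pos (I : CountInput S n) : 0 < Nat.card {Q : G.Pt K // n • Q = 0} :=
  haveI := I.finite_torsion
  haveI : Nonempty {Q : G.Pt K // n • Q = 0} := ⟨⟨0, smul_zero n⟩⟩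
  Nat.card_pos

variable (S) in
/-- **Lower bound**: `n ^ 2g ≤ #A[n] · (δ + 1) ^ g` with `δ` independent of `n`. -/
theorem exists_pow_le_card_torsion (H : DegreeCube G) :
    ∃ δ : ℕ, ∀ (n : ℕ), 0 < n → ∀ _I : CountInput S n,
      n ^ (2 * G.dim) ≤ Nat.card {Q : G.Pt K // n • Q = 0} * (δ + 1) ^ G.dim := by
  haveI := S.chart₀.isFunctionField1_curveField S.algebraic
  set x := AV.map (S.chart₀.curveHom S.algebraic) S.η with hxdef
  refine ⟨(degAlong (GenConst K G.dim) S.B x + degAlong (GenConst K G.dim) S.B (-x)).toNat,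
    fun n hn I => ?_⟩
  rcases Nat.eq_zero_or_pos G.dim with hg | hg
  · have h1 : n ^ (2 * G.dim) = 1 := by rw [hg, mul_zero, pow_zero]
    rw [h1]
    exact Nat.mul_pos I.card_pos (Nat.pow_pos (Nat.succ_pos _))
  set t₀ : {P : G.Pt K // n • P = 0} := ⟨0, smul_zero n⟩
  have halg' := S.algebraic_chart (I.chart t₀)
  haveI := (I.chart t₀).isFunctionField1_curveField halg'
  have hcomp : ((I.chart t₀).seriesHom halg').comp I.mulMap =
      S.chart₀.seriesHom S.algebraic := by
    haveI := S.chart₀.isFractionRing S.algebraic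
    refine AlgHom.coe_ringHom_injective
      (IsLocalization.ringHom_ext (nonZeroDivisors S.chart₀.ring) (RingHom.ext fun a => ?_))
    show (I.chart t₀).seriesHom halg' (I.mulMap (a : S.L)) =
      S.chart₀.seriesHom S.algebraic (a : S.L)
    have e : (I.chart t₀).seriesHom halg' (I.mulMap (a : S.L)) =
        (I.chart t₀).lineHom ⟨_, I.mulMap_mem t₀ a⟩ :=
      (I.chart t₀).seriesHom_coe halg' ⟨_, I.mulMap_mem t₀ a⟩
    rw [e, Chart.lineHom_apply, I.psi_mulMap, S.chart₀.seriesHom_coe, Chart.lineHom_apply]
  have hle : S.chart₀.curveField S.algebraic ≤ (I.chart t₀).curveField halg' := by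
    rw [Chart.curveField, IntermediateField.adjoin_le_iff, Set.insert_subset_iff]
    refine ⟨IntermediateField.subset_adjoin _ _ (Set.mem_insert _ _), ?_⟩
    rintro _ ⟨x, -, rfl⟩
    rw [← hcomp]
    exact (I.chart t₀).seriesHom_mem halg' _
  have hφ : ((IntermediateField.inclusion hle).restrictScalars K).comp
      (S.chart₀.curveHom S.algebraic) = ((I.chart t₀).curveHom halg').comp I.mulMap :=
    AlgHom.ext fun x => Subtype.ext (DFunLike.congr_fun hcomp x).symm
  have hx : SpecialisesTo x (S.chart₀.originPlace S.algebraic) 0 := by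
    have h := S.chart₀.specialises_curveHom S.algebraic
    rwa [S.point₀, _root_.map_zero] at h
  have hy : SpecialisesTo (AV.map ((I.chart t₀).curveHom halg') S.η)
      ((I.chart t₀).originPlace halg') 0 := by
    have h := (I.chart t₀).specialises_curveHom halg'
    rwa [I.point_chart t₀, show (t₀ : G.Pt K) = 0 from rfl, _root_.map_zero] at h
  have hparam : ∀ i, 0 < (S.chart₀.originPlace S.algebraic).ord
      (S.chart₀.curveHom S.algebraic (S.chart₀.param i : S.L)) := fun i => by
    have h := S.chart₀.le_ord_curveHom S.algebraic (S.chart₀.param i) 1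
      (fun h0 => by
        have h1 := congrArg (MvPowerSeries.coeff (Finsupp.single i 1)) (S.chart₀.psi_param i)
        rw [h0, map_zero, map_zero, MvPowerSeries.coeff_index_single_self_X] at h1
        exact zero_ne_one h1)
      (fun e he => by
        rw [(Finsupp.degree_eq_zero_iff e).mp (Nat.lt_one_iff.mp he), S.chart₀.psi_param,
          MvPowerSeries.coeff_zero_eq_constantCoeff, MvPowerSeries.constantCoeff_X])
    omega
  have h := choose_le_lower I _ _ _ hφ _ H hn hx hparam _ hy G.dim
  rw [← hxdef] at h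
  set δ := (degAlong (GenConst K G.dim) S.B x + degAlong (GenConst K G.dim) S.B (-x)).toNat
  have h2 := pow_le_of_le_mul_choose h
  refine Nat.le_of_mul_le_mul_right (?_ : _ * G.dim ^ G.dim ≤ _ * G.dim ^ G.dim)
    (Nat.pow_pos hg)
  calc n ^ (2 * G.dim) * G.dim ^ G.dim = (n ^ 2 * G.dim) ^ G.dim := by rw [pow_mul, mul_pow]
    _ ≤ (n ^ 2 * G.dim + 1) ^ G.dim := Nat.pow_le_pow_left (Nat.le_succ _) _
    _ ≤ _ := h2
    _ = _ := by rw [mul_assoc, ← mul_pow, Nat.succ_mul, mul_comm δ]

end FermatAgent.AbVar

end
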