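import Fermat.Agent.AbVar.Count.Upper
import Fermat.Agent.AbVar.Count.Lower
import Mathlib.Analysis.SpecificLimits.Basic

/-!
# The number of torsion points

The count is squeezed between multiples of `n ^ 2g` by constants independent of `n`; applied to
the powers of `n` this gives `#A[n] = n ^ 2g`.
-/

set_option autoImplicit false

noncomputable section

universe u

namespace FermatAgent.AbVar

open AV

variable {K : Type u} [Field K] {G : AV K}

/-- `#A[n]` is `n ^ 2g` up to constants independent of `n`. -/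
theorem card_torsion_bounds (S : CountSetting G) (H : DegreeCube G) :
    ∃ C : ℕ, 0 < C ∧ ∀ n : ℕ, 0 < n → ∀ _I : CountInput S n,
      n ^ (2 * G.dim) ≤ Nat.card {Q : G.Pt K // n • Q = 0} * C ∧
      Nat.card {Q : G.Pt K // n • Q = 0} ≤ n ^ (2 * G.dim) * C := by
  obtain ⟨P⟩ := S.chart₀.nonempty_probe S.algebraic
  obtain ⟨δ, hδ⟩ := exists_pow_le_card_torsion S H
  refine ⟨(δ + 1) ^ G.dim * (P.deg.toNat + 1) ^ G.dim,
    Nat.mul_pos (Nat.pow_pos (Nat.succ_pos _)) (Nat.pow_pos (Nat.succ_pos _)),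
    fun n hn I => ⟨(hδ n hn I).trans (Nat.mul_le_mul_left _
      (Nat.le_mul_of_pos_right _ (Nat.pow_pos (Nat.succ_pos _)))),
      (card_torsion_le I H P).trans ?_⟩⟩
  calc (n ^ 2 * P.deg.toNat + 1) ^ G.dim
      ≤ (n ^ 2 * (P.deg.toNat + 1)) ^ G.dim := Nat.pow_le_pow_left (by nlinarith) _
    _ = n ^ (2 * G.dim) * (P.deg.toNat + 1) ^ G.dim := by rw [mul_pow, pow_mul]
    _ ≤ _ := Nat.mul_le_mul_left _ (Nat.le_mul_of_pos_left _ (Nat.pow_pos (Nat.succ_pos _)))

/-- Numbers whose powers differ by bounded factors only are equal. -/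
theorem eq_of_pow_le_pow_mul {a b C : ℕ} (h1 : ∀ k, 0 < k → a ^ k ≤ b ^ k * C)
    (h2 : ∀ k, 0 < k → b ^ k ≤ a ^ k * C) : a = b := by
  suffices key : ∀ {x y : ℕ}, x < y → ¬ ∀ k, 0 < k → y ^ k ≤ x ^ k * C from
    le_antisymm (not_lt.mp fun h => key h h1) (not_lt.mp fun h => key h h2)
  intro x y hxy hle
  rcases Nat.eq_zero_or_pos x with rfl | hx
  · have := hle 1 one_pos
    simp at this; omega
  obtain ⟨k, hk⟩ := pow_unbounded_of_one_lt (C : ℝ)
    (show (1 : ℝ) < (y : ℝ) / x by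
      rw [lt_div_iff₀ (Nat.cast_pos.mpr hx), one_mul]; exact_mod_cast hxy)
  have h1 : (y : ℝ) ^ (k + 1) ≤ (x : ℝ) ^ (k + 1) * C := by exact_mod_cast hle (k + 1) k.succ_pos
  have h2 : (C : ℝ) < ((y : ℝ) / x) ^ (k + 1) := hk.trans_le (pow_le_pow_right₀
    (by rw [le_div_iff₀ (Nat.cast_pos.mpr hx), one_mul]; exact_mod_cast hxy.le) k.le_succ)
  rw [div_pow, lt_div_iff₀ (pow_pos (Nat.cast_pos.mpr hx) _)] at h2
  linarith

/-- `#A[n] = n ^ 2g` when the counts of `n`-power torsion multiply. -/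
theorem card_torsion_eq (S : CountSetting G) (H : DegreeCube G) {n : ℕ} (hn : 0 < n)
    (I : ∀ k : ℕ, 0 < k → CountInput S (n ^ k))
    (hpow : ∀ k : ℕ, 0 < k → Nat.card {Q : G.Pt K // n ^ k • Q = 0} =
      Nat.card {Q : G.Pt K // n • Q = 0} ^ k) :
    Nat.card {Q : G.Pt K // n • Q = 0} = n ^ (2 * G.dim) := by
  obtain ⟨C, -, hC⟩ := card_torsion_bounds S H
  refine eq_of_pow_le_pow_mul (C := C) (fun k hk => ?_) fun k hk => ?_
  · rw [← hpow k hk, ← pow_mul, mul_comm (2 * G.dim), pow_mul]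
    exact (hC _ (Nat.pow_pos hn) (I k hk)).2
  · rw [← hpow k hk, ← pow_mul, mul_comm (2 * G.dim), pow_mul]
    exact (hC _ (Nat.pow_pos hn) (I k hk)).1

end FermatAgent.AbVar

end
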