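import Fermat.Agent.AbVar.Count.Input
import Fermat.Agent.Curve.Basics.Degree
import Mathlib.RingTheory.Valuation.ValuationSubring

/-!
# Sections of a line bundle along embeddings and on curves
-/

set_option autoImplicit false
set_option linter.unusedSectionVars false
set_option linter.style.haveILetI false

noncomputable section

universe u

open AlgebraicCurve FermatAgent.Curve

namespace FermatAgent.AbVar

open AV

variable {K : Type u} [Field K] {G : AV K} {L F : Type u} [Field L] [Algebra K L] [Field F]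
  [Algebra K F]

theorem isVal_comap (σ : L →ₐ[K] F) {V : Subalgebra K F} (hV : IsVal V) : IsVal (V.comap σ) :=
  fun x => (hV (σ x)).imp id fun h => by
    show σ x⁻¹ ∈ V
    rwa [map_inv₀]

/-- An algebra homomorphism between subalgebras induced by one of the fields. -/
def restrictHom (σ : L →ₐ[K] F) (R : Subalgebra K L) (V : Subalgebra K F)
    (h : ∀ x : R, σ x ∈ V) : R →ₐ[K] V :=
  (σ.comp R.val).codRestrict V h

theorem map_restrictHom (σ : L →ₐ[K] F) (R : Subalgebra K L) {V : Subalgebra K F} (hV : IsVal V)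
    (h : ∀ x : R, σ x ∈ V) (Q : G.Pt R) :
    AV.lift hV (AV.map σ (AV.map R.val Q)) = AV.map (restrictHom σ R V h) Q :=
  AV.lift_eq hV (by rw [AV.map_map, AV.map_map]; rfl)

variable (B : G.LineBundle) (σ : L →ₐ[K] F) {V : Subalgebra K F} (hV : IsVal V)

theorem t_val_map (R : Subalgebra K L) [IsLocalRing R] (h : ∀ x : R, σ x ∈ V)
    (hloc : IsLocalHom (restrictHom σ R V h).toRingHom) (Q : G.Pt R) :
    (B.val hV (AV.map σ (AV.map R.val Q)) : F) = σ (B.t R.val Q : Lˣ) := by
  haveI := hV.isLocalRing
  have h1 := B.t_comp (restrictHom σ R V h) V.val Q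
  have h2 := B.t_comp R.val σ Q
  rw [show V.val.comp (restrictHom σ R V h) = σ.comp R.val from rfl, h2,
    B.t_of_isLocalHom _ hloc, map_one, one_mul,
    B.t_of_isLocalHom σ ⟨fun a ha => isUnit_iff_ne_zero.mpr fun h0 => ha.ne_zero (by simp [h0])⟩,
    mul_one] at h1
  rw [LineBundle.val, map_restrictHom σ R hV h, ← h1]
  rfl

/-- The trivialisation along an embedding. -/
theorem val_map (P : G.Pt L) :
    (B.val hV (AV.map σ P) : F) = σ (B.val (isVal_comap σ hV) P : Lˣ) := by
  haveI := (isVal_comap σ hV).isLocalRing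
  haveI := hV.isLocalRing
  have hloc : IsLocalHom (restrictHom σ (V.comap σ) V fun x => x.2).toRingHom := by
    refine ⟨fun x hx => ?_⟩
    obtain ⟨y, hy⟩ := isUnit_iff_exists_inv.mp hx
    have hy' : σ (x : L) * (y : F) = 1 := congrArg Subtype.val hy
    have hx0 : (x : L) ≠ 0 := fun h0 => by simp [h0] at hy'
    refine isUnit_iff_exists_inv.mpr ⟨⟨(x : L)⁻¹, ?_⟩, Subtype.ext (mul_inv_cancel₀ hx0)⟩
    show σ (x : L)⁻¹ ∈ V
    rw [map_inv₀, inv_eq_of_mul_eq_one_right hy']
    exact y.2
  conv_lhs => rw [← AV.map_lift (isVal_comap σ hV) P]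
  rw [t_val_map B σ hV (V.comap σ) (fun x => x.2) hloc]
  rfl

section Chart

variable {η : G.Pt L} {g : ℕ} (c : Chart η g)

theorem Chart.map_point (k : Type u) [Field k] [Algebra K k] :
    AV.map ((Algebra.ofId K k).comp c.ev) c.pt = AV.map (Algebra.ofId K k) c.point := by
  rw [Chart.point, AV.map_map]

/-- Pullbacks of sections are regular at the chart after multiplication by the trivialisation. -/
theorem Chart.map_mul_pow_mem {σ : L →ₐ[K] L} {Q : G.Pt c.ring}
    (hQ : AV.map c.ring.val Q = AV.map σ η) {m : ℕ} {f : L} (hf : f ∈ sect η B m) :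
    σ f * ((B.t c.ring.val Q : Lˣ) : L) ^ m ∈ c.ring := by
  refine c.closed _ ?_
  suffices h : σ f * ((B.t c.ring.val Q : Lˣ) : L) ^ m ∈
      (integralClosure (Subring.closure (c.ring : Set L)) L).toSubring by
    obtain ⟨p, hp, hpe⟩ := h
    have hle : Subring.closure (c.ring : Set L) ≤ c.ring.toSubring :=
      Subring.closure_le.mpr le_rfl
    refine ⟨p.map (Subring.inclusion hle), hp.map _, ?_⟩
    rw [Polynomial.eval₂_map]
    exact hpe
  rw [← iInf_valuationSubring_superset, Subring.mem_iInf]
  rintro ⟨W, hW⟩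
  let V : Subalgebra K L :=
    { W.toSubring.toSubsemiring with
      algebraMap_mem' := fun r => hW (c.ring.algebraMap_mem r) }
  have hV : IsVal V := W.mem_or_inv_mem
  haveI := hV.isLocalRing
  have hle : ∀ x : c.ring, (AlgHom.id K L) x ∈ V := fun x => hW x.2
  have h1 := B.t_comp (restrictHom (AlgHom.id K L) c.ring V hle) V.val Q
  rw [show V.val.comp (restrictHom (AlgHom.id K L) c.ring V hle) = c.ring.val from rfl] at h1
  set e := B.t (restrictHom (AlgHom.id K L) c.ring V hle) Q
  have hv : (B.val hV (AV.map σ η) : L) * ((e : V) : L) = ((B.t c.ring.val Q : Lˣ) : L) := by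
    rw [h1, mul_comm, LineBundle.val]
    rw [show AV.lift hV (AV.map σ η) = AV.map (restrictHom (AlgHom.id K L) c.ring V hle) Q from
      AV.lift_eq hV (by rw [AV.map_map]; exact hQ)]
    rfl
  rw [← hv, mul_pow, ← mul_assoc, val_map B σ hV η, ← map_pow, ← map_mul]
  exact V.mul_mem (hf _ (isVal_comap σ hV)) (V.pow_mem (e : V).2 m)

/-- Sections are regular at the chart after multiplication by its trivialisation. -/
theorem Chart.mul_pow_mem {m : ℕ} {f : L} (hf : f ∈ sect η B m) :
    f * c.unit B ^ m ∈ c.ring :=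
  c.map_mul_pow_mem B (σ := AlgHom.id K L) (c.map_pt.trans (AV.map_id η).symm) hf

end Chart

theorem mul_mem_sect {η : G.Pt L} {a b : ℕ} {f f' : L} (hf : f ∈ sect η B a)
    (hf' : f' ∈ sect η B b) : f * f' ∈ sect η B (a + b) := fun V hV => by
  rw [pow_add, mul_mul_mul_comm]
  exact V.mul_mem (hf V hV) (hf' V hV)

theorem one_mem_sect_zero {η : G.Pt L} : (1 : L) ∈ sect η B 0 := fun V _ => by
  simp only [pow_zero, mul_one]
  exact V.one_mem

theorem pow_mem_sect {η : G.Pt L} {a : ℕ} {f : L} (hf : f ∈ sect η B a) :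
    ∀ j : ℕ, f ^ j ∈ sect η B (a * j)
  | 0 => by rw [pow_zero, mul_zero]; exact one_mem_sect_zero B
  | j + 1 => by rw [pow_succ, mul_add, mul_one]; exact mul_mem_sect B (pow_mem_sect hf j) hf

/-- The value of a form of degree at most `m` in sections of degree one is a section of degree
`m`. -/
theorem aeval_mem_sect {η : G.Pt L} {ι : Type*} (x : ι → L) (h1 : (1 : L) ∈ sect η B 1)
    (hx : ∀ i, x i ∈ sect η B 1) {m : ℕ} {p : MvPolynomial ι K}
    (hp : ∀ d ∈ p.support, d.degree ≤ m) : MvPolynomial.aeval x p ∈ sect η B m := by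
  classical
  rw [p.as_sum, map_sum]
  refine Submodule.sum_mem _ fun d hd => ?_
  rw [MvPolynomial.aeval_monomial, ← Algebra.smul_def]
  refine Submodule.smul_mem _ _ ?_
  have key : ∀ s : Finset ι, ∏ i ∈ s, x i ^ d i ∈ sect η B (∑ i ∈ s, d i) := fun s => by
    induction s using Finset.induction_on with
    | empty => simpa using one_mem_sect_zero B
    | insert a s ha ih =>
      rw [Finset.prod_insert ha, Finset.sum_insert ha]
      exact mul_mem_sect B (by simpa using pow_mem_sect B (hx a) (d a)) ih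
  have h := mul_mem_sect B (key d.support) (pow_mem_sect B h1 (m - d.degree))
  rw [one_pow, mul_one, one_mul] at h
  rw [Finsupp.prod, show m = (∑ i ∈ d.support, d i) + (m - d.degree) by
    have hd' := hp d hd
    simp only [Finsupp.degree_apply] at hd' ⊢
    omega]
  exact h

section Curve

variable {k : Type u} [Field k] [Algebra K k] [Algebra k F] [IsScalarTower K k F]

theorem mem_placeAlg {v : Place k F} {x : F} :
    x ∈ placeAlg (K := K) v ↔ x ∈ v.toValuationSubring := Iff.rfl

/-- A section restricted to a curve has no poles beyond the bundle. -/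
theorem ord_map_sect {η : G.Pt L} {m : ℕ} {f : L} (hf : f ∈ sect η B m) (hf0 : f ≠ 0)
    (v : Place k F) : 0 ≤ v.ord (σ f) + m * ordAt B (AV.map σ η) v := by
  have h : σ f * ((B.val (isVal_placeAlg v) (AV.map σ η) : Fˣ) : F) ^ m ∈
      v.toValuationSubring := by
    rw [val_map B σ (isVal_placeAlg v) η, ← map_pow, ← map_mul]
    exact hf _ (isVal_comap σ (isVal_placeAlg v))
  have h' := Curve.ord_nonneg_of_mem' v h
  rwa [v.ord_mul ((map_ne_zero σ).mpr hf0) (pow_ne_zero _ (Units.ne_zero _)),
    Curve.ord_pow'] at h'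

variable [IsAlgClosed k] [IsFunctionField1 k F]

/-- A function with poles bounded by a finite family of orders has total order at most its
sum. -/
theorem sum_ord_add_le_finsum {a : Place k F → ℤ} (ha : (Function.support a).Finite) {φ : F}
    (h : ∀ v, 0 ≤ v.ord φ + a v) (S : Finset (Place k F)) :
    ∑ v ∈ S, (v.ord φ + a v) ≤ ∑ᶠ v, a v := by
  classical
  set T := S ∪ ha.toFinset ∪ (Curve.finite_setOf_ord_ne_zero (K := k) φ).toFinset
  have hT : ∑ v ∈ T, v.ord φ = 0 := by
    have h := Curve.degree_divisorOf (K := k) φ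
    rw [Curve.degree_eq_sum, Finsupp.sum] at h
    rw [← h]
    refine (Finset.sum_subset (fun v hv => ?_) fun v _ hv => ?_).symm
    · simp [T, Curve.divisorOf_apply] at hv ⊢
      exact Or.inr (Or.inr hv)
    · simpa [Curve.divisorOf_apply] using hv
  calc ∑ v ∈ S, (v.ord φ + a v) ≤ ∑ v ∈ T, (v.ord φ + a v) :=
        Finset.sum_le_sum_of_subset_of_nonneg (fun v hv => by simp [T, hv]) fun v _ _ => h v
    _ = ∑ v ∈ T, a v := by rw [Finset.sum_add_distrib, hT, zero_add]
    _ = ∑ᶠ v, a v := (finsum_eq_sum_of_support_subset a fun v hv => by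
        simp [T, Function.mem_support.mp hv]).symm

/-- A bundle with the section `1` has nonnegative degree along an embedding. -/
theorem degAlong_nonneg {η : G.Pt L} (h1 : (1 : L) ∈ sect η B 1) :
    0 ≤ degAlong k B (AV.map σ η) := by
  refine finsum_nonneg fun v => ?_
  have h := ord_map_sect B σ h1 one_ne_zero v
  rwa [map_one, v.ord_one, zero_add, Nat.cast_one, one_mul] at h

end Curve

end FermatAgent.AbVar

end
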