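import Fermat.Agent.AbVar.Count.Binom
import Fermat.Agent.AbVar.Count.Independence
import Fermat.Agent.AbVar.Count.CurvePlace
import Fermat.Agent.AbVar.Count.Quadratic

/-!
# The upper bound for the number of `n`-torsion points

Combinations of `(c e_s) · (x^α ∘ n)` are sections whose degree on the generic curve is at most
`b q(x) + m q(n x)`, so they are determined by their jets of that order at the origin.
-/

set_option autoImplicit false
set_option linter.style.haveILetI false

noncomputable section

universe u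

open AlgebraicCurve FermatAgent.Curve

namespace FermatAgent.AbVar

open AV

variable {K : Type u} [Field K] {G : AV K} {S : CountSetting G} {n : ℕ}

/-- The degree of the bundle at `±` the generic point on a probe. -/
def Probe.deg {g : ℕ} {c : Chart S.η g} (P : Probe c) : ℤ :=
  degAlong P.k S.B (AV.map P.j S.η) + degAlong P.k S.B (-(AV.map P.j S.η))

theorem Probe.degAlong_nonneg_neg {g : ℕ} {c : Chart S.η g} (P : Probe c) :
    0 ≤ degAlong P.k S.B (-(AV.map P.j S.η)) := by
  rw [← _root_.map_neg (AV.map P.j), ← S.map_negMap, AV.map_map]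
  exact degAlong_nonneg S.B _ S.one_mem

theorem Probe.deg_nonneg {g : ℕ} {c : Chart S.η g} (P : Probe c) : 0 ≤ P.deg :=
  add_nonneg (degAlong_nonneg S.B P.j S.one_mem) P.degAlong_nonneg_neg

/-- A probe is a local homomorphism from the chart to the local ring of its point. -/
theorem Probe.isLocalHom {g : ℕ} {c : Chart S.η g} (P : Probe c) :
    IsLocalHom (restrictHom P.j c.ring (placeAlg (K := K) P.v) fun a =>
      mem_placeAlg.mpr (P.mem a)).toRingHom := by
  refine ⟨fun a ha => c.isUnit_of_ne a fun h0 => ?_⟩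
  obtain ⟨y, hy⟩ := isUnit_iff_exists_inv.mp ha
  have hy' : P.j (a : S.L) * (y : P.F) = 1 := congrArg Subtype.val hy
  have ha0 : a ≠ 0 := by rintro rfl; simp at hy'
  have h1 := P.le_ord a 1 ha0 fun e he => by
    rw [(Finsupp.degree_eq_zero_iff e).mp (Nat.lt_one_iff.mp he),
      MvPowerSeries.coeff_zero_eq_constantCoeff]
    exact h0
  have h2 := Curve.ord_nonneg_of_mem' P.v (mem_placeAlg.mp y.2)
  have h3 := congrArg P.v.ord hy'
  rw [P.v.ord_mul (left_ne_zero_of_mul_eq_one hy') (right_ne_zero_of_mul_eq_one hy'),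
    P.v.ord_one] at h3
  omega

theorem Probe.ordAt_eq {g : ℕ} {c : Chart S.η g} (P : Probe c) {σ : S.L →ₐ[K] S.L}
    {Q : G.Pt c.ring} (hQ : AV.map c.ring.val Q = AV.map σ S.η) :
    ordAt S.B (AV.map (P.j.comp σ) S.η) P.v =
      P.v.ord (P.j ((S.B.t c.ring.val Q : S.Lˣ) : S.L)) := by
  unfold ordAt
  congr 1
  rw [← AV.map_map, ← hQ]
  exact t_val_map S.B P.j (isVal_placeAlg P.v) c.ring
    (fun a => mem_placeAlg.mpr (P.mem a)) P.isLocalHom Q

variable (I : CountInput S n)

include I in
/-- The bound on the number of torsion points coming from `m`. -/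
theorem choose_le_upper (H : DegreeCube G) (P : Probe S.chart₀) :
    ∃ b : ℕ, ∀ m : ℕ, Nat.card {Q : G.Pt K // n • Q = 0} * (m + G.dim).choose G.dim ≤
      (b + m * (n ^ 2 * P.deg.toNat) + G.dim).choose G.dim := by
  classical
  haveI := I.finite_torsion
  letI := Fintype.ofFinite {Q : G.Pt K // n • Q = 0}
  obtain ⟨e, he⟩ := I.separation
  obtain ⟨c, b, hc, hb⟩ := S.exists_mul_mem_sect e
  refine ⟨b * P.deg.toNat, fun m => ?_⟩
  set g := G.dim
  set x := AV.map P.j S.η
  have hx : SpecialisesTo x P.v 0 := by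
    have h := P.specialises
    rwa [S.point₀, _root_.map_zero] at h
  have hdx : degAlong P.k S.B x ≤ P.deg := le_add_of_nonneg_right P.degAlong_nonneg_neg
  have hdn : degAlong P.k S.B (n • x) ≤ (n : ℤ) ^ 2 * P.deg :=
    degAlong_nsmul_le H S.B hx (degAlong_nonneg S.B P.j S.one_mem) P.degAlong_nonneg_neg n
  have hnx : AV.map (P.j.comp I.mulMap) S.η = n • x := by
    rw [← AV.map_map, I.map_mulMap, map_nsmul]
  set M := b * P.deg.toNat + m * (n ^ 2 * P.deg.toNat)
  set u := S.chart₀.unit S.B
  set Q := n • S.chart₀.pt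
  have hQ : AV.map S.chart₀.ring.val Q = AV.map I.mulMap S.η := by
    rw [map_nsmul, S.chart₀.map_pt, I.map_mulMap]
  set w : S.L := ((S.B.t S.chart₀.ring.val Q : S.Lˣ) : S.L)
  have hu0 : u ≠ 0 := Units.ne_zero _
  have hw0 : w ≠ 0 := Units.ne_zero _
  -- the functions
  let mon : expUpTo g m → S.L := fun α => MvPolynomial.aeval S.x (MvPolynomial.monomial α.1 (1 : K))
  have hmon : ∀ α, mon α ∈ sect S.η S.B m := fun α =>
    aeval_mem_sect S.B S.x S.one_mem S.x_mem fun d hd => by
      rw [Finset.mem_singleton.mp (MvPolynomial.support_monomial_subset hd)]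
      exact mem_expUpTo.mp α.2
  let fn : {Q : G.Pt K // n • Q = 0} × expUpTo g m → S.L :=
    fun p => c * e p.1 * I.mulMap (mon p.2)
  have hreg : ∀ p, fn p * u ^ b * w ^ m ∈ S.chart₀.ring := fun p => by
    rw [show fn p * u ^ b * w ^ m = c * e p.1 * u ^ b * (I.mulMap (mon p.2) * w ^ m) by
      simp only [fn]; ring]
    exact Subalgebra.mul_mem _ (S.chart₀.mul_pow_mem S.B (hb p.1))
      (S.chart₀.map_mul_pow_mem S.B hQ (hmon p.2))
  let jets : ({Q : G.Pt K // n • Q = 0} × expUpTo g m → K) →ₗ[K] (expUpTo g M → K) :=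
    LinearMap.pi fun d => ∑ p,
      (MvPowerSeries.coeff d.1 (S.chart₀.psi ⟨_, hreg p⟩)) • LinearMap.proj p
  have hinj : Function.Injective jets := by
    refine (injective_iff_map_eq_zero jets).mpr fun l hl => ?_
    set f : S.L := ∑ p, l p • fn p with hfdef
    have hfa : f * u ^ b * w ^ m =
        ((∑ p, l p • (⟨_, hreg p⟩ : S.chart₀.ring) : S.chart₀.ring) : S.L) := by
      simp only [hfdef, Finset.sum_mul, smul_mul_assoc, AddSubmonoidClass.coe_finsetSum,
        Subalgebra.coe_smul]
    set a : S.chart₀.ring := ∑ p, l p • (⟨_, hreg p⟩ : S.chart₀.ring)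
    have hjet : ∀ d : Fin g →₀ ℕ, d.degree < M + 1 →
        MvPowerSeries.coeff d (S.chart₀.psi a) = 0 := fun d hd => by
      have h := congrFun hl ⟨d, mem_expUpTo.mpr (Nat.lt_succ_iff.mp hd)⟩
      simp only [jets, LinearMap.pi_apply, Finset.sum_apply, LinearMap.smul_apply,
        LinearMap.coe_sum, LinearMap.proj_apply, smul_eq_mul, Pi.zero_apply] at h
      simp only [a, map_sum, map_smul, smul_eq_mul]
      exact (Finset.sum_congr rfl fun p _ => mul_comm _ _).trans h
    have hf : f = 0 := by
      by_contra hf0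
      have ha : a ≠ 0 := fun h0 => by
        rw [h0, ZeroMemClass.coe_zero] at hfa
        exact mul_ne_zero (mul_ne_zero hf0 (pow_ne_zero _ hu0)) (pow_ne_zero _ hw0) hfa
      -- bounded by the bundles at every place
      set A : Place P.k P.F → ℤ := fun v => b * ordAt S.B x v + m * ordAt S.B (n • x) v
      have hA : (Function.support A).Finite :=
        ((finite_support_ordAt S.B x).union (finite_support_ordAt S.B (n • x))).subset
          fun v hv => by
            by_contra h
            simp only [Set.mem_union, Function.mem_support, not_or, not_not] at h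
            exact hv (by simp [A, h.1, h.2])
      have hpole : ∀ v, 0 ≤ v.ord (P.j f) + A v := by
        intro v
        have hmem : P.j f * ((S.B.val (isVal_placeAlg v) x : P.Fˣ) : P.F) ^ b *
            ((S.B.val (isVal_placeAlg v) (n • x) : P.Fˣ) : P.F) ^ m ∈ placeAlg (K := K) v := by
          rw [hfdef, map_sum, Finset.sum_mul, Finset.sum_mul]
          refine Subalgebra.sum_mem _ fun p _ => ?_
          rw [map_smul, smul_mul_assoc, smul_mul_assoc]
          refine Subalgebra.smul_mem _ ?_ _
          rw [show P.j (fn p) * ((S.B.val (isVal_placeAlg v) x : P.Fˣ) : P.F) ^ b *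
              ((S.B.val (isVal_placeAlg v) (n • x) : P.Fˣ) : P.F) ^ m =
              (P.j (c * e p.1) * ((S.B.val (isVal_placeAlg v) x : P.Fˣ) : P.F) ^ b) *
              ((P.j.comp I.mulMap) (mon p.2) *
                ((S.B.val (isVal_placeAlg v) (n • x) : P.Fˣ) : P.F) ^ m) by
            simp only [fn, map_mul, AlgHom.comp_apply]; ring]
          refine Subalgebra.mul_mem _ ?_ ?_
          · rw [val_map S.B P.j (isVal_placeAlg v) S.η, ← map_pow, ← map_mul]
            exact hb p.1 _ (isVal_comap P.j (isVal_placeAlg v))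
          · rw [← hnx, val_map S.B _ (isVal_placeAlg v) S.η, ← map_pow, ← map_mul]
            exact Subalgebra.mem_comap _ _ _ |>.mp
              (hmon p.2 _ (isVal_comap (P.j.comp I.mulMap) (isVal_placeAlg v)))
        have h := Curve.ord_nonneg_of_mem' v (mem_placeAlg.mp hmem)
        have hne : P.j f ≠ 0 := (map_ne_zero _).mpr hf0
        rw [v.ord_mul (mul_ne_zero hne (pow_ne_zero _ (Units.ne_zero _)))
            (pow_ne_zero _ (Units.ne_zero _)),
          v.ord_mul hne (pow_ne_zero _ (Units.ne_zero _)), Curve.ord_pow', Curve.ord_pow'] at h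
        simp only [A, ordAt]
        linarith
      have htot := sum_ord_add_le_finsum hA hpole {P.v}
      rw [Finset.sum_singleton] at htot
      have hfin : ∑ᶠ v, A v = b * degAlong P.k S.B x + m * degAlong P.k S.B (n • x) := by
        simp only [A, degAlong]
        rw [finsum_add_distrib, mul_finsum, mul_finsum]
        · exact (finite_support_ordAt S.B x).subset fun v hv h => hv (by simp [h])
        · exact (finite_support_ordAt S.B (n • x)).subset fun v hv h => hv (by simp [h])
      have hord := P.le_ord a (M + 1) ha hjet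
      rw [← hfa, map_mul, map_mul, map_pow, map_pow,
        P.v.ord_mul (mul_ne_zero ((map_ne_zero _).mpr hf0)
          (pow_ne_zero _ ((map_ne_zero _).mpr hu0))) (pow_ne_zero _ ((map_ne_zero _).mpr hw0)),
        P.v.ord_mul ((map_ne_zero _).mpr hf0) (pow_ne_zero _ ((map_ne_zero _).mpr hu0)),
        Curve.ord_pow', Curve.ord_pow'] at hord
      have e1 : ordAt S.B x P.v = P.v.ord (P.j u) := by
        have h := P.ordAt_eq (σ := AlgHom.id K S.L) (Q := S.chart₀.pt)
          (by rw [S.chart₀.map_pt, AV.map_id])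
        rwa [AlgHom.comp_id] at h
      have e2 : ordAt S.B (n • x) P.v = P.v.ord (P.j w) := by
        have h := P.ordAt_eq (σ := I.mulMap) hQ
        rwa [hnx] at h
      have hA0 : A P.v = b * P.v.ord (P.j u) + m * P.v.ord (P.j w) := by simp only [A, e1, e2]
      rw [hfin, hA0] at htot
      have hb' : (b : ℤ) * degAlong P.k S.B x ≤ b * P.deg :=
        mul_le_mul_of_nonneg_left hdx b.cast_nonneg
      have hm' : (m : ℤ) * degAlong P.k S.B (n • x) ≤ m * ((n : ℤ) ^ 2 * P.deg) :=
        mul_le_mul_of_nonneg_left hdn m.cast_nonneg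
      have hM : (M : ℤ) = b * P.deg + m * ((n : ℤ) ^ 2 * P.deg) := by
        simp only [M]
        push_cast
        rw [Int.toNat_of_nonneg P.deg_nonneg]
      push_cast at hord
      linarith
    -- independence
    have hsum : ∀ s, ∑ α, l (s, α) • MvPolynomial.monomial α.1 (1 : K) = 0 := by
      set p : {Q : G.Pt K // n • Q = 0} → MvPolynomial (Fin g) K :=
        fun s => ∑ α, l (s, α) • MvPolynomial.monomial α.1 (1 : K)
      have h0 : ∑ s, I.mulMap (MvPolynomial.aeval S.x (p s)) * e s = 0 := by
        refine (mul_eq_zero.mp ?_).resolve_left hc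
        rw [← hf, hfdef, Fintype.sum_prod_type, Finset.mul_sum]
        refine Finset.sum_congr rfl fun s _ => ?_
        simp only [p, fn, mon, map_sum, map_smul, Finset.sum_mul, Finset.mul_sum]
        refine Finset.sum_congr rfl fun α _ => ?_
        rw [smul_mul_assoc, mul_smul_comm]
        congr 1
        ring
      intro s
      exact S.x_indep.eq_zero_of_aeval_eq_zero _ (congrFun (I.eq_zero_of_sum he _ h0) s)
    funext ⟨s, α⟩
    have h := congrArg (MvPolynomial.coeff α.1) (hsum s)
    rw [MvPolynomial.coeff_sum, Finset.sum_eq_single α] at h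
    · simpa [MvPolynomial.coeff_monomial] using h
    · intro β _ hβ
      rw [MvPolynomial.coeff_smul, MvPolynomial.coeff_monomial,
        if_neg fun e' => hβ (Subtype.ext e'), smul_zero]
    · intro hn; exact absurd (Finset.mem_univ α) hn
  have h := LinearMap.finrank_le_finrank_of_injective hinj
  rwa [Module.finrank_fintype_fun_eq_card, Module.finrank_fintype_fun_eq_card, Fintype.card_prod,
    Fintype.card_coe, Fintype.card_coe, card_expUpTo, card_expUpTo, ← Nat.card_eq_fintype_card] at h

include I in
/-- **Upper bound**: `#A[n] ≤ (n² δ + 1) ^ g`. -/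
theorem card_torsion_le (H : DegreeCube G) (P : Probe S.chart₀) :
    Nat.card {Q : G.Pt K // n • Q = 0} ≤ (n ^ 2 * P.deg.toNat + 1) ^ G.dim := by
  obtain ⟨b, hb⟩ := choose_le_upper I H P
  set N := n ^ 2 * P.deg.toNat
  set g := G.dim
  set C := b + g + 1
  have h := pow_le_of_choose_le (hb (b + g))
  have h2 : b + (b + g) * N + g ≤ (N + 1) * C := by
    simp only [C]; ring_nf; omega
  have h3 : Nat.card {Q : G.Pt K // n • Q = 0} * C ^ g ≤ (N + 1) ^ g * C ^ g := by
    rw [← mul_pow]
    exact h.trans (Nat.pow_le_pow_left h2 g)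
  exact Nat.le_of_mul_le_mul_right h3 (Nat.pow_pos (Nat.succ_pos _))

end FermatAgent.AbVar

end
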